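import Fermat.Agent.Dimension.EvalMatrix

/-!
# The dimension of weight two cusp forms for a separating subgroup

The main result is `twelve_mul_finrank_cuspForm`, obtained by comparing the weights of graded
bases of forms and of cusp forms.
-/

set_option autoImplicit false

open UpperHalfPlane Filter Matrix
open scoped Topology Manifold ModularForm MatrixGroups Classical

noncomputable section

namespace Fermat.Agent.Dimension

variable {Γ : Subgroup SL(2, ℤ)} {s : Bool}

/-- In a lowest weight, the number of generators is the dimension. -/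
lemma GradedBasis.finrank_lowest (B : GradedBasis Γ s) (k : ℕ)
    (hlow : ∀ b, B.wt b ≠ k → k < B.wt b + 4) :
    Module.finrank ℂ (forms Γ s (k : ℤ)) = (Finset.univ.filter fun b ↦ B.wt b = k).card := by
  set ι' := {b : B.ι // B.wt b = k}
  let v : ι' → forms Γ s (k : ℤ) := fun b ↦ ⟨B.fn b.1, by have := B.mem b.1; rwa [b.2] at this⟩
  have hli : LinearIndependent ℂ v := by
    rw [Fintype.linearIndependent_iff]
    intro c hc b
    let φ : B.ι → ℍ → ℂ := fun b ↦ if hb : B.wt b = k then c ⟨b, hb⟩ • (1 : ℍ → ℂ) else 0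
    have hφ : ∀ b, φ b ∈ L ((k : ℤ) - B.wt b) := fun b ↦ by
      simp only [φ]
      split_ifs with hb
      · rw [hb, sub_self]; exact Submodule.smul_mem _ _ one_mem_L
      · exact zero_mem _
    have h0 : ∑ b, φ b * B.fn b = 0 := by
      rw [← Finset.sum_subset (Finset.subset_univ (Finset.univ.filter fun b ↦ B.wt b = k))
        (fun b _ hb ↦ by simp [φ, show B.wt b ≠ k by simpa using hb]),
        Finset.sum_subtype _ (p := fun b ↦ B.wt b = k) (fun b ↦ by simp)]
      have := congrArg Subtype.val hc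
      simp only [AddSubmonoidClass.coe_finsetSum, Submodule.coe_smul, v, ZeroMemClass.coe_zero]
        at this
      rw [← this]
      exact Finset.sum_congr rfl fun b _ ↦ by simp [φ, b.2]
    have := congrFun (B.indep k φ hφ h0 b.1) UpperHalfPlane.I
    simpa [φ, b.2] using this
  have hsp : ⊤ ≤ Submodule.span ℂ (Set.range v) := by
    rintro ⟨f, hf⟩ -
    obtain ⟨φ, hφ, hfφ⟩ := B.span _ f hf
    have hz : ∀ b, B.wt b ≠ k → φ b = 0 := fun b hb ↦
      L_small (by omega) (by have := hlow b hb; omega) (hφ b)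
    have hconst : ∀ b : ι', ∃ c : ℂ, φ b.1 = c • (1 : ℍ → ℂ) := fun b ↦ L_zero (by
      have := hφ b.1
      rwa [b.2, sub_self] at this)
    choose c hc using hconst
    have : (⟨f, hf⟩ : forms Γ s (k : ℤ)) = ∑ b : ι', c b • v b := by
      apply Subtype.ext
      rw [AddSubmonoidClass.coe_finsetSum]
      conv_lhs => simp only
      rw [hfφ, ← Finset.sum_subset (Finset.subset_univ (Finset.univ.filter fun b ↦ B.wt b = k))
        (fun b _ hb ↦ by simp [hz b (by simpa using hb)]),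
        Finset.sum_subtype _ (p := fun b ↦ B.wt b = k) (fun b ↦ by simp)]
      exact Finset.sum_congr rfl fun b _ ↦ by simp [v, hc b]
    rw [this]
    exact sum_mem fun b _ ↦ Submodule.smul_mem _ _ (Submodule.subset_span ⟨b, rfl⟩)
  rw [Module.finrank_eq_card_basis (Module.Basis.mk hli hsp), Fintype.card_subtype]

lemma GradedBasis.fn_ne_zero (B : GradedBasis Γ s) (b : B.ι) : B.fn b ≠ 0 := by
  intro hz
  have hmem : ∀ b', (fun b' ↦ if b' = b then (1 : ℍ → ℂ) else 0) b' ∈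
      L ((B.wt b : ℤ) - B.wt b') := fun b' ↦ by
    dsimp only
    split_ifs with hb
    · subst hb; rw [sub_self]; exact one_mem_L
    · exact zero_mem _
  have := B.indep _ _ hmem (by simp [hz]) b
  simp at this

lemma GradedBasis.wt_even (B : GradedBasis Γ s) (hneg : (-1 : SL(2, ℤ)) ∈ Γ) (b : B.ι) :
    Even (B.wt b) :=
  (Nat.even_or_odd (B.wt b)).resolve_right fun h ↦
    B.fn_ne_zero b (forms_odd hneg (Odd.natCast h) (B.mem b))

lemma GradedBasis.wt_cusp_ne_zero [Γ.FiniteIndex] (B : GradedBasis Γ true) (b : B.ι) :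
    B.wt b ≠ 0 := fun h ↦
  B.fn_ne_zero b (forms_true_weight_zero (by simpa [h] using B.mem b))

variable [Γ.FiniteIndex] [Fintype (Coset Γ)]

/-- Duality between the weights of forms and of cusp forms. -/
lemma weights_duality (hneg : (-1 : SL(2, ℤ)) ∈ Γ) (M : GradedBasis Γ false)
    (C : GradedBasis Γ true) (hM : Separates Γ false) :
    ∃ e : M.ι ≃ C.ι, ∀ b, M.wt b + C.wt (e b) = 12 := by
  have : Fintype (Cusps Γ) := Fintype.ofFinite _
  have hC := hM.cusp
  set WM := squareMatrix M hM UpperHalfPlane.I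
  set WC := squareMatrix C hC UpperHalfPlane.I
  have hdet : (WMᵀ * WC).det ≠ 0 := by
    rw [Matrix.det_mul, Matrix.det_transpose]
    exact mul_ne_zero (det_ne_zero _ _ _) (det_ne_zero _ _ _)
  obtain ⟨σ, hσ⟩ : ∃ σ : Equiv.Perm (Coset Γ), ∀ c, (WMᵀ * WC) (σ c) c ≠ 0 := by
    by_contra! h
    refine hdet ?_
    rw [Matrix.det_apply]
    refine Finset.sum_eq_zero fun σ _ ↦ ?_
    obtain ⟨c, hc⟩ := h σ
    rw [(Finset.prod_eq_zero (f := fun i ↦ (WMᵀ * WC) (σ i) i) (Finset.mem_univ c) hc :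
      ∏ i, (WMᵀ * WC) (σ i) i = 0), smul_zero]
  have hge : ∀ c, 12 ≤ M.wt (rowEquiv M hM (σ c)) + C.wt (rowEquiv C hC c) := fun c ↦ by
    by_contra! hlt
    set b := rowEquiv M hM (σ c)
    set b' := rowEquiv C hC c
    set P : ℍ → ℂ := ∑ q : Coset Γ, trans Γ (M.wt b) q (M.fn b) * trans Γ (C.wt b') q (C.fn b')
    have hsl : ∀ γ : SL(2, ℤ), P ∣[((M.wt b + C.wt b' : ℕ) : ℤ)] γ = P := fun γ ↦ by
      rw [SlashAction.sum_slash]
      simp only [Nat.cast_add, ModularForm.mul_slash_SL2, trans_slash (M.mem _),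
        trans_slash (C.mem _)]
      exact Equiv.sum_comp (MulAction.toPerm γ⁻¹ : Equiv.Perm (Coset Γ))
        fun q ↦ trans Γ (M.wt b) q (M.fn b) * trans Γ (C.wt b') q (C.fn b')
    have hzero : IsZeroAtImInfty P := by
      refine Finset.sum_induction _ IsZeroAtImInfty (fun _ _ h h' ↦ ZeroAtFilter.add h h')
        (zero_zeroAtFilter _) fun q _ ↦ ?_
      have h1 : IsZeroAtImInfty (trans Γ (C.wt b') q (C.fn b')) := trans_cond (C.mem _) q
      have := ZeroAtFilter.mul_boundedAtFilter h1 (trans_cond (M.mem b) q).bounded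
      rwa [mul_comm] at this
    have hmem : P ∈ L ((M.wt b + C.wt b' : ℕ) : ℤ) := ⟨MDifferentiable.sum fun q _ ↦
      (trans_mdiff (M.mem _) q).mul (trans_mdiff (C.mem _) q), fun γ _ ↦ hsl γ,
      fun g ↦ by rw [hsl g]; exact hzero.isBoundedAtImInfty⟩
    have hP := congrFun (L_cusp_small (by omega) hmem hzero) UpperHalfPlane.I
    refine hσ c ?_
    rw [Matrix.mul_apply]
    simpa [P, WM, WC, squareMatrix_apply, Finset.sum_apply] using! hP
  have htot : ∑ c, (M.wt (rowEquiv M hM (σ c)) + C.wt (rowEquiv C hC c)) =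
      ∑ _c : Coset Γ, 12 := by
    have h1 := totalWeight_eq M hneg hM
    have h2 := totalWeight_eq C hneg hC
    simp only [Bool.false_eq_true, if_false, if_true] at h1 h2
    have e1 : ∑ x, M.wt (rowEquiv M hM (σ x)) = totalWeight M :=
      Equiv.sum_comp (σ.trans (rowEquiv M hM)) M.wt
    have e2 : ∑ x, C.wt (rowEquiv C hC x) = totalWeight C := Equiv.sum_comp (rowEquiv C hC) C.wt
    rw [Finset.sum_add_distrib, e1, e2]
    simp only [Finset.sum_const, Finset.card_univ, smul_eq_mul]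
    zify
    linarith
  have heq := (Finset.sum_eq_sum_iff_of_le fun c _ ↦ hge c).mp htot.symm
  refine ⟨((σ.trans (rowEquiv M hM)).symm).trans (rowEquiv C hC), fun b ↦ ?_⟩
  have := heq ((σ.trans (rowEquiv M hM)).symm b) (Finset.mem_univ _)
  simp only [Equiv.symm_trans_apply, Equiv.apply_symm_apply, Equiv.trans_apply] at this ⊢
  omega

/-- The weight distribution. -/
lemma sum_by_weight {ι : Type} [Fintype ι] (w : ι → ℕ) (hw : ∀ b, Even (w b) ∧ w b ≤ 10)
    (F : ℕ → ℂ) :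
    ∑ b, F (w b) = ∑ j ∈ Finset.range 6,
      ((Finset.univ.filter fun b ↦ w b = 2 * j).card : ℂ) * F (2 * j) := by
  rw [← Finset.sum_fiberwise_of_maps_to (g := fun b ↦ w b / 2) (t := Finset.range 6)
    (fun b _ ↦ Finset.mem_range.mpr (by have := (hw b).2; omega))]
  refine Finset.sum_congr rfl fun j _ ↦ ?_
  have hf : (Finset.univ.filter fun b ↦ w b / 2 = j) =
      Finset.univ.filter fun b ↦ w b = 2 * j := Finset.filter_congr fun b _ ↦ by
    obtain ⟨r, hr⟩ := (hw b).1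
    omega
  rw [hf, Finset.sum_congr rfl fun b hb ↦ by rw [(Finset.mem_filter.mp hb).2]]
  simp

lemma S_fix_I : ModularGroup.S • UpperHalfPlane.I = UpperHalfPlane.I := by
  rw [modular_S_smul]
  ext
  simp

lemma ST_fix_rho : (ModularGroup.S * ModularGroup.T) • ρ = ρ := by
  rw [mul_smul, modular_T_smul, modular_S_smul]
  ext
  rw [UpperHalfPlane.coe_mk, coe_vadd]
  have hne : ((1 : ℂ) + (ρ : ℂ)) ≠ 0 := fun h ↦ by
    have := congrArg Complex.im h
    simp [ρ] at this
  push_cast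
  rw [← mul_one (_ : ℂ)⁻¹, inv_mul_eq_iff_eq_mul₀ (neg_ne_zero.mpr hne)]
  linear_combination (ρ_sq : (ρ : ℂ) ^ 2 = _)

/-- **Dimension of weight two cusp forms.** -/
theorem twelve_mul_finrank_cuspForm (hneg : (-1 : SL(2, ℤ)) ∈ Γ) (hM : Separates Γ false) :
    12 * (Module.finrank ℂ (CuspForm (Γ : Subgroup (GL (Fin 2) ℝ)) 2) : ℂ) =
      12 + (Nat.card (Coset Γ) : ℂ)
        - 3 * (Nat.card {c : Coset Γ // ModularGroup.S • c = c} : ℂ)
        - 4 * (Nat.card {c : Coset Γ // (ModularGroup.S * ModularGroup.T) • c = c} : ℂ)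
        - 6 * (Nat.card (Cusps Γ) : ℂ) := by
  have : Fintype (Cusps Γ) := Fintype.ofFinite _
  obtain ⟨M⟩ := exists_gradedBasis Γ hneg false
  obtain ⟨C⟩ := exists_gradedBasis Γ hneg true
  obtain ⟨e, he⟩ := weights_duality hneg M C hM
  have hCw : ∀ b, 2 ≤ C.wt b := fun b ↦ by
    have := C.wt_cusp_ne_zero b
    obtain ⟨r, hr⟩ := C.wt_even hneg b
    omega
  have hw : ∀ b, Even (M.wt b) ∧ M.wt b ≤ 10 := fun b ↦
    ⟨M.wt_even hneg b, by have := he b; have := hCw (e b); omega⟩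
  set n : ℕ → ℂ := fun j ↦ ((Finset.univ.filter fun b ↦ M.wt b = 2 * j).card : ℂ) with hn
  have hsum : ∀ F : ℕ → ℂ, ∑ b, F (M.wt b) =
      n 0 * F 0 + n 1 * F 2 + n 2 * F 4 + n 3 * F 6 + n 4 * F 8 + n 5 * F 10 := fun F ↦ by
    rw [sum_by_weight M.wt hw F]
    simp [Finset.sum_range_succ, hn]
  -- dimension of `S₂`
  have hdim : (Module.finrank ℂ (CuspForm (Γ : Subgroup (GL (Fin 2) ℝ)) 2) : ℂ) = n 5 := by
    rw [(cuspFormEquiv (Γ := Γ) (k := 2)).finrank_eq]
    simp only [hn]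
    norm_cast
    rw [show ((2 : ℤ)) = ((2 : ℕ) : ℤ) from rfl,
      C.finrank_lowest 2 (fun b _ ↦ by have := hCw b; omega)]
    refine (Finset.card_equiv e fun b ↦ ?_).symm
    simp only [Finset.mem_filter, Finset.mem_univ, true_and]
    have := he b
    omega
  -- weight zero
  have hn0 : n 0 = 1 := by
    rw [hn]
    simp only [mul_zero, Nat.cast_eq_one]
    rw [← M.finrank_lowest 0 (fun b _ ↦ by omega), Nat.cast_zero]
    have h1 : (1 : ℍ → ℂ) ∈ forms Γ false 0 := by
      obtain ⟨h1, h2, h3⟩ := one_mem_L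
      exact ⟨h1, fun γ _ ↦ h2 γ (Subgroup.mem_top _), h3⟩
    refine finrank_eq_one (⟨1, h1⟩ : forms Γ false 0) ?_ fun f ↦ ?_
    · intro h
      have := congrFun (congrArg Subtype.val h) UpperHalfPlane.I
      simp at this
    · obtain ⟨c, hc⟩ := forms_weight_zero f.2
      exact ⟨c, Subtype.ext (by rw [hc]; funext τ; simp)⟩
  -- total number
  have hcard : n 0 + n 1 + n 2 + n 3 + n 4 + n 5 = (Nat.card (Coset Γ) : ℂ) := by
    have := hsum fun _ ↦ 1
    simp only [mul_one] at this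
    rw [← this, Nat.card_eq_fintype_card, ← card_index M hM]
    simp
  -- total weight
  have hA : 2 * n 1 + 4 * n 2 + 6 * n 3 + 8 * n 4 + 10 * n 5 =
      6 * (Nat.card (Coset Γ) : ℂ) - 6 * (Nat.card (Cusps Γ) : ℂ) := by
    have h1 := congrArg (fun z : ℤ ↦ (z : ℂ)) (totalWeight_eq M hneg hM)
    simp only [totalWeight, Bool.false_eq_true, if_false] at h1
    push_cast at h1
    rw [hsum fun w ↦ (w : ℂ)] at h1
    push_cast at h1
    simp only [Nat.card_eq_fintype_card]
    linear_combination h1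
  -- `i`
  have hI : n 0 - n 1 + n 2 - n 3 + n 4 - n 5 =
      (Nat.card {c : Coset Γ // ModularGroup.S • c = c} : ℂ) := by
    rw [fixed_count M hM _ _ S_fix_I]
    have hd : denom (ModularGroup.S : GL (Fin 2) ℝ) UpperHalfPlane.I = Complex.I := by
      simp [denom, ModularGroup.coe_S]
    rw [hd, hsum fun w ↦ Complex.I ^ (-(w : ℤ))]
    simp only [_root_.zpow_neg, _root_.zpow_natCast]
    have h2 : Complex.I ^ 2 = -1 := Complex.I_sq
    have h4 : Complex.I ^ 4 = 1 := by rw [show 4 = 2 * 2 from rfl, pow_mul, h2]; norm_num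
    have h6 : Complex.I ^ 6 = -1 := by rw [show 6 = 2 * 3 from rfl, pow_mul, h2]; norm_num
    have h8 : Complex.I ^ 8 = 1 := by rw [show 8 = 2 * 4 from rfl, pow_mul, h2]; norm_num
    have h10 : Complex.I ^ 10 = -1 := by rw [show 10 = 2 * 5 from rfl, pow_mul, h2]; norm_num
    rw [h2, h4, h6, h8, h10]
    simp
    ring
  -- `ρ`
  set ν : ℕ := Nat.card {c : Coset Γ // (ModularGroup.S * ModularGroup.T) • c = c} with hν
  have hρ : (n 0 + n 3) + (n 1 + n 4) * (ρ : ℂ) ^ 2 + (n 2 + n 5) * (ρ : ℂ) = (ν : ℂ) := by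
    rw [hν, fixed_count M hM _ _ ST_fix_rho]
    have hd : denom ((ModularGroup.S * ModularGroup.T : SL(2, ℤ)) : GL (Fin 2) ℝ) ρ = 1 + ρ := by
      simp [denom, ModularGroup.coe_S, ModularGroup.coe_T, Matrix.mul_apply, Fin.sum_univ_two,
        add_comm]
    rw [hd, hsum fun w ↦ (1 + (ρ : ℂ)) ^ (-(w : ℤ))]
    simp only [_root_.zpow_neg, _root_.zpow_natCast]
    have e1 : (1 : ℂ) + ρ = -(ρ : ℂ) ^ 2 := by linear_combination (ρ_sq : (ρ : ℂ) ^ 2 = _)
    have e3 : (ρ : ℂ) ^ 3 = 1 := by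
      linear_combination ((ρ : ℂ) - 1) * (ρ_sq : (ρ : ℂ) ^ 2 = _)
    have p2 : (1 + (ρ : ℂ)) ^ 2 = (ρ : ℂ) := by rw [e1]; linear_combination (ρ : ℂ) * e3
    have p6 : (1 + (ρ : ℂ)) ^ 6 = 1 := by rw [show 6 = 2 * 3 from rfl, pow_mul, p2, e3]
    have i2 : ((1 + (ρ : ℂ)) ^ 2)⁻¹ = (ρ : ℂ) ^ 2 :=
      inv_eq_of_mul_eq_one_right (by rw [p2]; linear_combination e3)
    have i4 : ((1 + (ρ : ℂ)) ^ 4)⁻¹ = (ρ : ℂ) :=
      inv_eq_of_mul_eq_one_right (by
        rw [show 4 = 2 * 2 from rfl, pow_mul, p2]; linear_combination e3)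
    have i8 : ((1 + (ρ : ℂ)) ^ 8)⁻¹ = (ρ : ℂ) ^ 2 := by
      rw [show 8 = 6 + 2 from rfl, pow_add, p6, one_mul, i2]
    have i10 : ((1 + (ρ : ℂ)) ^ 10)⁻¹ = (ρ : ℂ) := by
      rw [show 10 = 6 + 4 from rfl, pow_add, p6, one_mul, i4]
    rw [i2, i4, p6, i8, i10]
    simp
    ring
  have him := congrArg Complex.im hρ
  have him2 : ((ρ : ℂ) ^ 2).im = -(ρ : ℂ).im := by rw [ρ_sq]; simp
  have hρim : (ρ : ℂ).im ≠ 0 := ρ.im_ne_zero
  simp only [hn, Complex.add_re, Complex.add_im, Complex.mul_im,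
    Complex.natCast_re, Complex.natCast_im, him2, zero_mul, mul_zero, add_zero,
    zero_add] at him
  have h25 : n 1 + n 4 = n 2 + n 5 := by
    simp only [hn]
    have : ((Finset.univ.filter fun b ↦ M.wt b = 2 * 2).card : ℝ) +
        (Finset.univ.filter fun b ↦ M.wt b = 2 * 5).card -
        ((Finset.univ.filter fun b ↦ M.wt b = 2 * 1).card +
        (Finset.univ.filter fun b ↦ M.wt b = 2 * 4).card) = 0 :=
      (mul_eq_zero.mp (by linear_combination him)).resolve_right hρim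
    exact_mod_cast (by linarith : ((Finset.univ.filter fun b ↦ M.wt b = 2 * 1).card : ℝ) +
        (Finset.univ.filter fun b ↦ M.wt b = 2 * 4).card =
        (Finset.univ.filter fun b ↦ M.wt b = 2 * 2).card +
        (Finset.univ.filter fun b ↦ M.wt b = 2 * 5).card)
  have hρ3 : n 0 + n 3 - (n 2 + n 5) = (ν : ℂ) := by
    linear_combination hρ - (n 2 + n 5) * (ρ_sq : (ρ : ℂ) ^ 2 = _) - (ρ : ℂ) ^ 2 * h25
  rw [hdim]
  linear_combination hA + 12 * hn0 - 3 * hI - 4 * hρ3 - 5 * hcard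

end Fermat.Agent.Dimension
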