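import Fermat.Agent.Dimension.Translates

/-!
# Jets at the cusps

The orbits of `T` on the cosets are the cusps; the size of an orbit is the width. For every cusp of
width `w` and every `n < w` we extract the Fourier component of index `n` of the translates.
-/

set_option autoImplicit false

open UpperHalfPlane Filter Matrix
open scoped Topology Manifold ModularForm MatrixGroups Real Classical

noncomputable section

namespace Fermat.Agent.Dimension

/-- Cusps of `Γ`: orbits of `T` on cosets. -/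
abbrev Cusps (Γ : Subgroup SL(2, ℤ)) : Type :=
  MulAction.orbitRel.Quotient (Subgroup.zpowers (ModularGroup.T)⁻¹) (Coset Γ)

variable (Γ : Subgroup SL(2, ℤ))

/-- A representative coset of a cusp. -/
def cuspRep (o : Cusps Γ) : Coset Γ := Quotient.out o

/-- The width of a cusp. -/
def width (o : Cusps Γ) : ℕ :=
  Function.minimalPeriod (fun c : Coset Γ ↦ (ModularGroup.T)⁻¹ • c) (cuspRep Γ o)

/-- Index set of the jets. -/
abbrev JetIdx : Type := Σ o : Cusps Γ, Fin (width Γ o)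

/-- The coset attached to a jet index. -/
def jetCoset (p : JetIdx Γ) : Coset Γ := ((ModularGroup.T)⁻¹ ^ (p.2 : ℕ)) • cuspRep Γ p.1

/-- `exp (2 π i x / w)`. -/
def root (w : ℕ) (x : ℤ) : ℂ := Complex.exp (2 * π * Complex.I * x / w)

/-- Fourier component. -/
def comp (k : ℤ) (p : JetIdx Γ) (f : ℍ → ℂ) (τ : ℍ) : ℂ :=
  (width Γ p.1 : ℂ)⁻¹ * ∑ i : Fin (width Γ p.1),
    root (width Γ p.1) (-((i : ℤ) * (p.2 : ℕ))) * trans Γ k (jetCoset Γ ⟨p.1, i⟩) f τ

/-- The order attached to a jet index. -/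
def expo (s : Bool) (p : JetIdx Γ) : ℕ :=
  if s = true ∧ (p.2 : ℕ) = 0 then width Γ p.1 else p.2

/-- The exponent of `q` attached to a jet index. -/
def expoQ (s : Bool) (p : JetIdx Γ) : ℝ := (expo Γ s p : ℝ) / (width Γ p.1 : ℝ)

/-- Normalised Fourier component. -/
def jetFun (s : Bool) (k : ℤ) (p : JetIdx Γ) (f : ℍ → ℂ) (τ : ℍ) : ℂ :=
  comp Γ k p f τ * qpow (-expoQ Γ s p) τ

/-- The jet: the limit of the normalised Fourier component. -/
def jet (s : Bool) (k : ℤ) (p : JetIdx Γ) (f : ℍ → ℂ) : ℂ :=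
  limUnder atImInfty (jetFun Γ s k p f)

/-- The matrix expressing translates through Fourier components. -/
def dft : Matrix (JetIdx Γ) (JetIdx Γ) ℂ :=
  Matrix.blockDiagonal' fun o ↦
    Matrix.of fun j n : Fin (width Γ o) ↦ root (width Γ o) ((j : ℤ) * (n : ℕ))

variable {Γ} {s : Bool} {k l : ℤ}

lemma root_add (w : ℕ) (x y : ℤ) : root w (x + y) = root w x * root w y := by
  rw [root, root, root, ← Complex.exp_add]; push_cast; ring_nf

lemma root_zero (w : ℕ) : root w 0 = 1 := by simp [root]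

lemma root_dvd (w : ℕ) (m : ℤ) : root w (w * m) = 1 := by
  rcases eq_or_ne w 0 with rfl | hw
  · simp [root]
  refine Complex.exp_eq_one_iff.mpr ⟨m, ?_⟩
  push_cast; field_simp

lemma root_natMul (w : ℕ) (d : ℤ) (n : ℕ) : root w (n * d) = root w d ^ n := by
  induction n with
  | zero => simp [root_zero]
  | succ n ih => rw [pow_succ, ← ih, ← root_add]; congr 1; push_cast; ring

lemma root_orth {w : ℕ} (i j : Fin w) :
    ∑ n : Fin w, root w ((n : ℕ) * ((j : ℤ) - (i : ℤ))) = if i = j then (w : ℂ) else 0 := by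
  split_ifs with h
  · simp [h, root_zero]
  · simp only [root_natMul]
    rw [Fin.sum_univ_eq_sum_range (fun n ↦ root w ((j : ℤ) - (i : ℤ)) ^ n)]
    have hw : (w : ℂ) ≠ 0 := by have := i.pos; exact_mod_cast this.ne'
    have h1 : root w ((j : ℤ) - (i : ℤ)) ≠ 1 := by
      intro he
      obtain ⟨m, hm⟩ := Complex.exp_eq_one_iff.mp he
      have hm' : (((j : ℤ) - (i : ℤ) : ℤ) : ℂ) = ((w : ℤ) * m : ℤ) := by
        field_simp at hm
        push_cast at hm ⊢
        linear_combination hm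
      have := Int.cast_inj.mp hm'
      have hd : (j : ℤ) - i = 0 :=
        Int.eq_zero_of_dvd_of_natAbs_lt_natAbs ⟨m, this⟩ (by omega)
      exact h (Fin.ext (by omega))
    rw [geom_sum_eq h1, ← root_natMul, root_dvd, sub_self, zero_div]

variable [Γ.FiniteIndex]

lemma width_pos (o : Cusps Γ) : 0 < width Γ o :=
  (MulAction.isPeriodicPt_smul_iff.mpr (pow_orderOf_eq_one
    (MulAction.toPerm ((ModularGroup.T)⁻¹) : Equiv.Perm (Coset Γ)) |> fun h ↦ by
      have := congrArg (fun e : Equiv.Perm (Coset Γ) ↦ e (cuspRep Γ o)) h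
      rw [Equiv.Perm.one_apply, ← MulAction.toPermHom_apply, ← map_pow] at this
      exact this)).minimalPeriod_pos (orderOf_pos _)

lemma jetCoset_bijective : Function.Bijective (jetCoset Γ) := by
  constructor
  · rintro ⟨o, i⟩ ⟨o', i'⟩ h
    obtain rfl : o = o' := by
      have hrel : ∀ p : JetIdx Γ, (Quotient.mk'' (jetCoset Γ p) : Cusps Γ) = p.1 := fun p ↦ by
        conv_rhs => rw [← Quotient.out_eq' p.1]
        exact Quotient.sound' (MulAction.orbitRel_apply.mpr
          ⟨⟨_, Subgroup.npow_mem_zpowers _ _⟩, rfl⟩)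
      have h1 := hrel ⟨o, i⟩
      rw [h, hrel ⟨o', i'⟩] at h1
      exact h1.symm
    have := (Function.iterate_eq_iterate_iff_of_lt_minimalPeriod i.isLt i'.isLt).mp
      (by simpa [jetCoset, smul_iterate] using h)
    obtain rfl := Fin.ext this
    rfl
  · intro c
    set o : Cusps Γ := Quotient.mk'' c with ho
    have : c ∈ MulAction.orbit (Subgroup.zpowers (ModularGroup.T)⁻¹) (cuspRep Γ o) :=
      MulAction.orbitRel_apply.mp (Quotient.exact' (Quotient.out_eq' o).symm)
    obtain ⟨⟨g, hg⟩, hgc⟩ := this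
    obtain ⟨n, rfl⟩ := Subgroup.mem_zpowers_iff.mp hg
    have hw := width_pos o
    refine ⟨⟨o, ⟨(n % (width Γ o : ℤ)).toNat, ?_⟩⟩, ?_⟩
    · have := Int.emod_lt_of_pos n (Int.natCast_pos.mpr hw)
      omega
    · have hnn := Int.emod_nonneg n (b := (width Γ o : ℤ)) (by omega)
      rw [jetCoset, ← zpow_natCast, Int.toNat_of_nonneg hnn]
      exact (MulAction.zpow_smul_mod_minimalPeriod _ _ n).trans hgc

/-- Jet indices are in bijection with cosets. -/
def jetEquiv : JetIdx Γ ≃ Coset Γ := Equiv.ofBijective _ jetCoset_bijective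

variable [Fintype (Cusps Γ)]

/-- Translates are recovered from the Fourier components. -/
lemma dft_mul_comp (p : JetIdx Γ) (f : ℍ → ℂ) (τ : ℍ) :
    ∑ q : JetIdx Γ, dft Γ p q * comp Γ k q f τ = trans Γ k (jetCoset Γ p) f τ := by
  classical
  obtain ⟨o, j⟩ := p
  rw [Fintype.sum_sigma, Finset.sum_eq_single o
    (fun o' _ ho ↦ Finset.sum_eq_zero fun n _ ↦ by
      simp [dft, Matrix.blockDiagonal'_apply_ne _ _ _ (Ne.symm ho)])
    (fun h ↦ absurd (Finset.mem_univ o) h)]
  simp only [dft, Matrix.blockDiagonal'_apply_eq, Matrix.of_apply, comp, Finset.mul_sum]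
  change (∑ n : Fin (width Γ o), ∑ i : Fin (width Γ o), root (width Γ o) ((j : ℤ) * (n : ℕ)) *
    ((width Γ o : ℂ)⁻¹ * (root (width Γ o) (-((i : ℤ) * (n : ℕ))) *
      trans Γ k (jetCoset Γ ⟨o, i⟩) f τ))) = _
  rw [Finset.sum_comm]
  have hw : (width Γ o : ℂ) ≠ 0 := by exact_mod_cast (width_pos o).ne'
  calc ∑ i : Fin (width Γ o), ∑ n : Fin (width Γ o), root (width Γ o) ((j : ℤ) * (n : ℕ)) *
        ((width Γ o : ℂ)⁻¹ * (root (width Γ o) (-((i : ℤ) * (n : ℕ))) *
          trans Γ k (jetCoset Γ ⟨o, i⟩) f τ))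
      = ∑ i : Fin (width Γ o), (width Γ o : ℂ)⁻¹ * trans Γ k (jetCoset Γ ⟨o, i⟩) f τ *
          ∑ n : Fin (width Γ o), root (width Γ o) ((n : ℕ) * ((j : ℤ) - (i : ℤ))) := by
        refine Finset.sum_congr rfl fun i _ ↦ ?_
        rw [Finset.mul_sum]
        refine Finset.sum_congr rfl fun n _ ↦ ?_
        rw [show ((n : ℕ) : ℤ) * ((j : ℤ) - (i : ℤ)) =
          (j : ℤ) * (n : ℕ) + -((i : ℤ) * (n : ℕ)) by ring, root_add]
        ring
    _ = trans Γ k (jetCoset Γ ⟨o, j⟩) f τ := by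
        simp only [root_orth, mul_ite, mul_zero, Finset.sum_ite_eq', Finset.mem_univ, if_true]
        field_simp

lemma dft_det_ne_zero : (dft Γ).det ≠ 0 := by
  suffices h : dft Γ * (Matrix.blockDiagonal' fun o ↦ (width Γ o : ℂ)⁻¹ •
      Matrix.of fun n i : Fin (width Γ o) ↦ root (width Γ o) (-((i : ℤ) * (n : ℕ)))) = 1 from
    left_ne_zero_of_mul_eq_one ((Matrix.det_mul _ _).symm.trans (by rw [h, Matrix.det_one]))
  rw [dft, ← Matrix.blockDiagonal'_mul, ← Matrix.blockDiagonal'_one]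
  congr 1
  funext o
  have hw : (width Γ o : ℂ) ≠ 0 := by exact_mod_cast (width_pos o).ne'
  have key : (Matrix.of fun j n : Fin (width Γ o) ↦ root (width Γ o) ((j : ℤ) * (n : ℕ))) *
      ((width Γ o : ℂ)⁻¹ • Matrix.of fun n i : Fin (width Γ o) ↦
        root (width Γ o) (-((i : ℤ) * (n : ℕ)))) = 1 := by
    ext j i
    simp only [Matrix.mul_apply, Matrix.of_apply, Matrix.smul_apply, smul_eq_mul,
      Matrix.one_apply]
    calc ∑ n : Fin (width Γ o), root (width Γ o) ((j : ℤ) * (n : ℕ)) *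
          ((width Γ o : ℂ)⁻¹ * root (width Γ o) (-((i : ℤ) * (n : ℕ))))
        = (width Γ o : ℂ)⁻¹ *
          ∑ n : Fin (width Γ o), root (width Γ o) ((n : ℕ) * ((j : ℤ) - (i : ℤ))) := by
          rw [Finset.mul_sum]
          refine Finset.sum_congr rfl fun n _ ↦ ?_
          rw [show ((n : ℕ) : ℤ) * ((j : ℤ) - (i : ℤ)) =
            (j : ℤ) * (n : ℕ) + -((i : ℤ) * (n : ℕ)) by ring, root_add]
          ring
      _ = if j = i then 1 else 0 := by
          rw [root_orth]
          rcases eq_or_ne j i with rfl | h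
          · simp [hw]
          · simp [h, Ne.symm h]
  exact key

omit [Fintype (Cusps Γ)]

omit [Γ.FiniteIndex] in
lemma comp_vadd {f : ℍ → ℂ} (hf : f ∈ forms Γ s k) (p : JetIdx Γ) (τ : ℍ) :
    comp Γ k p f ((1 : ℝ) +ᵥ τ) = root (width Γ p.1) (p.2 : ℕ) * comp Γ k p f τ := by
  obtain ⟨o, n⟩ := p
  simp only [comp]
  set G : ℕ → ℂ := fun m ↦ root (width Γ o) (-((m : ℤ) * (n : ℕ))) *
    trans Γ k (((ModularGroup.T)⁻¹ ^ m) • cuspRep Γ o) f τ with hG
  have hfix : ((ModularGroup.T)⁻¹ ^ width Γ o) • cuspRep Γ o = cuspRep Γ o := by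
    rw [← smul_iterate_apply]; exact Function.iterate_minimalPeriod
  have hGw : G (width Γ o) = G 0 := by
    simp only [hG, hfix, pow_zero, one_smul]
    congr 1
    rw [← mul_neg, root_dvd]
    simp [root_zero]
  have hterm : ∀ i : Fin (width Γ o), root (width Γ o) (-((i : ℤ) * (n : ℕ))) *
      trans Γ k (jetCoset Γ ⟨o, i⟩) f ((1 : ℝ) +ᵥ τ) =
        root (width Γ o) (n : ℕ) * G ((i : ℕ) + 1) := by
    intro i
    rw [trans_T hf, jetCoset, ← mul_smul, ← pow_succ', hG]
    simp only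
    rw [← mul_assoc, ← root_add]
    congr 2; push_cast; ring
  refine (congrArg ((width Γ o : ℂ)⁻¹ * ·) (Finset.sum_congr rfl fun i _ ↦ hterm i)).trans ?_
  rw [← Finset.mul_sum]
  have hshift : ∑ i : Fin (width Γ o), G ((i : ℕ) + 1) = ∑ i : Fin (width Γ o), G i := by
    rw [Fin.sum_univ_eq_sum_range (fun m ↦ G (m + 1)), Fin.sum_univ_eq_sum_range G]
    have h1 := Finset.sum_range_succ' G (width Γ o)
    have h2 := Finset.sum_range_succ G (width Γ o)
    rw [hGw] at h2
    linear_combination h2 - h1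
  rw [hshift]
  simp only [hG, jetCoset]
  ring

lemma exp_expoQ (s : Bool) (p : JetIdx Γ) :
    Complex.exp (2 * π * Complex.I * ((-expoQ Γ s p : ℝ) : ℂ)) *
      root (width Γ p.1) (p.2 : ℕ) = 1 := by
  have hw : (width Γ p.1 : ℂ) ≠ 0 := by exact_mod_cast (width_pos p.1).ne'
  rw [root, ← Complex.exp_add, Complex.exp_eq_one_iff]
  rw [expoQ, expo]
  split_ifs with h
  · refine ⟨-1, ?_⟩
    rw [h.2]; push_cast; field_simp; ring
  · refine ⟨0, ?_⟩
    push_cast; ring

lemma jetFun_per1 {f : ℍ → ℂ} (hf : f ∈ forms Γ s k) (p : JetIdx Γ) :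
    Per1 (jetFun Γ s k p f) := fun τ ↦ by
  rw [jetFun, jetFun, comp_vadd hf, qpow_vadd]
  linear_combination (comp Γ k p f τ * qpow (-expoQ Γ s p) τ) * exp_expoQ s p

omit [Γ.FiniteIndex] in
lemma comp_mdiff {f : ℍ → ℂ} (hf : f ∈ forms Γ s k) (p : JetIdx Γ) : MDiff (comp Γ k p f) := by
  have h : MDiff (∑ i : Fin (width Γ p.1),
      root (width Γ p.1) (-((i : ℤ) * (p.2 : ℕ))) • trans Γ k (jetCoset Γ ⟨p.1, i⟩) f) :=
    MDifferentiable.sum fun i _ ↦ (trans_mdiff hf _).const_smul _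
  convert h.const_smul (width Γ p.1 : ℂ)⁻¹ using 1
  funext τ; simp [comp, Finset.sum_apply]

omit [Γ.FiniteIndex] in
lemma jetFun_mdiff {f : ℍ → ℂ} (hf : f ∈ forms Γ s k) (p : JetIdx Γ) :
    MDiff (jetFun Γ s k p f) := (comp_mdiff hf p).mul (mdifferentiable_qpow _)

omit [Γ.FiniteIndex] in
lemma comp_cond {f : ℍ → ℂ} (hf : f ∈ forms Γ s k) (p : JetIdx Γ) :
    CuspCond s (comp Γ k p f) := by
  have : comp Γ k p f = (width Γ p.1 : ℂ)⁻¹ • ∑ i : Fin (width Γ p.1),
      root (width Γ p.1) (-((i : ℤ) * (p.2 : ℕ))) • trans Γ k (jetCoset Γ ⟨p.1, i⟩) f := by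
    funext τ; simp [comp, Finset.sum_apply]
  rw [this]
  refine CuspCond.smul _ ?_
  exact Finset.sum_induction _ (CuspCond s) (fun _ _ ↦ CuspCond.add) cuspCond_zero
    fun i _ ↦ (trans_cond hf _).smul _

omit [Γ.FiniteIndex] in
lemma expoQ_nonneg (s : Bool) (p : JetIdx Γ) : 0 ≤ expoQ Γ s p := by unfold expoQ; positivity

lemma expoQ_cases (s : Bool) (p : JetIdx Γ) :
    (s = true ∧ 0 < expoQ Γ s p ∧ expoQ Γ s p ≤ 1) ∨ (s = false ∧ expoQ Γ s p < 1) := by
  have hw : (0 : ℝ) < width Γ p.1 := by exact_mod_cast width_pos p.1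
  have hn : (expo Γ s p : ℝ) ≤ width Γ p.1 := by
    rw [expo]; split_ifs <;> exact_mod_cast (by omega : _ ≤ width Γ p.1)
  cases s with
  | true =>
    have : 0 < expo Γ true p := by
      rw [expo]; split_ifs with h
      · exact width_pos _
      · simp only [true_and] at h; omega
    exact Or.inl ⟨rfl, by unfold expoQ; positivity, by rw [expoQ, div_le_one hw]; exact hn⟩
  | false =>
    refine Or.inr ⟨rfl, ?_⟩
    rw [expoQ, div_lt_one hw]
    simp [expo, p.2.isLt]

lemma jetFun_bounded {f : ℍ → ℂ} (hf : f ∈ forms Γ s k) (p : JetIdx Γ) :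
    IsBoundedAtImInfty (jetFun Γ s k p f) := by
  -- `g = jetFun * q` has period one and tends to zero
  have hg : (fun τ ↦ jetFun Γ s k p f τ * qpow 1 τ) =
      fun τ ↦ comp Γ k p f τ * qpow (1 - expoQ Γ s p) τ := by
    funext τ
    rw [jetFun, mul_assoc, ← qpow_add, neg_add_eq_sub]
  have hz : IsZeroAtImInfty (fun τ ↦ jetFun Γ s k p f τ * qpow 1 τ) := by
    rw [hg]
    have h0 := comp_cond hf p
    rcases expoQ_cases s p with ⟨rfl, -, hle⟩ | ⟨rfl, hlt⟩
    · exact ZeroAtFilter.mul_boundedAtFilter h0 (qpow_bounded (by linarith))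
    · have h1 : IsZeroAtImInfty (qpow (1 - expoQ Γ false p)) := tendsto_qpow (by linarith)
      have := ZeroAtFilter.mul_boundedAtFilter h1 h0
      simpa [mul_comm, IsZeroAtImInfty, ZeroAtFilter, Pi.mul_def] using this
  have hper : Per1 (fun τ ↦ jetFun Γ s k p f τ * qpow 1 τ) :=
    (jetFun_per1 hf p).mul (by simpa using! per1_qpow_int 1)
  have := hper.div_qpow_bounded ((jetFun_mdiff hf p).mul (mdifferentiable_qpow 1)) hz
  convert this using 2 with τ
  rw [mul_assoc, ← qpow_add]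
  simp [qpow_zero]

/-- The normalised Fourier components tend to the jets. -/
lemma tendsto_jet {f : ℍ → ℂ} (hf : f ∈ forms Γ s k) (p : JetIdx Γ) :
    Tendsto (jetFun Γ s k p f) atImInfty (𝓝 (jet Γ s k p f)) :=
  tendsto_nhds_limUnder
    ((jetFun_per1 hf p).exists_tendsto (jetFun_mdiff hf p) (jetFun_bounded hf p))

omit [Γ.FiniteIndex] in
lemma comp_mul_L {a : ℍ → ℂ} {m : ℤ} (ha : a ∈ L l) (h : l + k = m) (p : JetIdx Γ)
    (f : ℍ → ℂ) : comp Γ m p (a * f) = a * comp Γ k p f := by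
  funext τ
  simp only [comp, trans_mul_L' ha h, Pi.mul_apply, Finset.mul_sum]
  exact Finset.sum_congr rfl fun i _ ↦ by ring

lemma jet_mul_L {a f : ℍ → ℂ} {m : ℤ} {c : ℂ} (ha : a ∈ L l) (hc : Tendsto a atImInfty (𝓝 c))
    (hf : f ∈ forms Γ s k) (h : l + k = m) (p : JetIdx Γ) :
    jet Γ s m p (a * f) = c * jet Γ s k p f := by
  refine tendsto_nhds_unique (tendsto_jet (mul_mem_forms' ha hf h) p) ?_
  refine (hc.mul (tendsto_jet hf p)).congr fun τ ↦ ?_
  simp [jetFun, comp_mul_L ha h, mul_assoc]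

lemma jet_add {f g : ℍ → ℂ} (hf : f ∈ forms Γ s k) (hg : g ∈ forms Γ s k) (p : JetIdx Γ) :
    jet Γ s k p (f + g) = jet Γ s k p f + jet Γ s k p g := by
  refine tendsto_nhds_unique (tendsto_jet (add_mem hf hg) p) ?_
  refine ((tendsto_jet hf p).add (tendsto_jet hg p)).congr fun τ ↦ ?_
  simp [jetFun, comp, trans_add, mul_add, Finset.sum_add_distrib, add_mul]

lemma jet_smul {f : ℍ → ℂ} (hf : f ∈ forms Γ s k) (a : ℂ) (p : JetIdx Γ) :
    jet Γ s k p (a • f) = a * jet Γ s k p f := by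
  refine tendsto_nhds_unique (tendsto_jet (Submodule.smul_mem _ a hf) p) ?_
  refine ((tendsto_jet hf p).const_mul a).congr fun τ ↦ ?_
  simp only [jetFun, comp, trans_smul, Pi.smul_apply, smul_eq_mul, Finset.mul_sum, Finset.sum_mul]
  exact Finset.sum_congr rfl fun i _ ↦ by ring

/-- The jets of weight `k` forms as a linear map. -/
def jetLin (Γ : Subgroup SL(2, ℤ)) [Γ.FiniteIndex] (s : Bool) (k : ℤ) :
    forms Γ s k →ₗ[ℂ] (JetIdx Γ → ℂ) where
  toFun f p := jet Γ s k p f
  map_add' f g := funext fun p ↦ jet_add f.2 g.2 p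
  map_smul' a f := funext fun p ↦ jet_smul f.2 a p

/-- A form with vanishing jets is divisible by `Δ`. -/
lemma div_disc_mem {f : ℍ → ℂ} (hf : f ∈ forms Γ s k) (h0 : ∀ p, jet Γ s k p f = 0) :
    f / disc ∈ forms Γ s (k - 12) := by
  have : Fintype (Cusps Γ) := Fintype.ofFinite _
  have hdisc : ∀ g : SL(2, ℤ), disc ∣[(12 : ℤ)] g = disc := fun g ↦
    disc_mem.2.1 g (Subgroup.mem_top _)
  have hinv : ∀ γ ∈ Γ, (f / disc) ∣[k - 12] γ = f / disc := fun γ hγ ↦ by
    rw [ModularForm.div_slash_SL2, hf.2.1 γ hγ, hdisc]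
  refine ⟨hf.1.div disc_mem.1 disc_ne, hinv, cond_slash_of_trans hinv fun c ↦ ?_⟩
  obtain ⟨q, rfl⟩ := jetCoset_bijective.2 c
  have htr : trans Γ (k - 12) (jetCoset Γ q) (f / disc) = trans Γ k (jetCoset Γ q) f / disc := by
    rw [trans, trans, ModularForm.div_slash_SL2, hdisc]
  have hcomp : ∀ p, CuspCond s (comp Γ k p f / disc) := fun p ↦ by
    have hz : IsZeroAtImInfty (jetFun Γ s k p f) := by
      have := tendsto_jet hf p
      rwa [h0 p] at this
    have hb := bounded_div_disc (jetFun_per1 hf p) (jetFun_mdiff hf p) hz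
    have he : comp Γ k p f / disc = qpow (expoQ Γ s p) * (jetFun Γ s k p f / disc) := by
      funext τ
      have h1 : qpow (expoQ Γ s p) τ * qpow (-expoQ Γ s p) τ = 1 := by
        rw [← qpow_add]; simp [qpow_zero]
      simp only [Pi.mul_apply, Pi.div_apply, jetFun]
      linear_combination (-(comp Γ k p f τ / disc τ)) * h1
    rw [he]
    refine CuspCond.mul_bounded ?_ hb
    rcases expoQ_cases s p with ⟨rfl, hpos, -⟩ | ⟨rfl, -⟩
    · exact tendsto_qpow hpos
    · exact qpow_bounded (expoQ_nonneg false p)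
  have hsum : trans Γ (k - 12) (jetCoset Γ q) (f / disc) =
      ∑ p, dft Γ q p • (comp Γ k p f / disc) := by
    rw [htr]
    funext τ
    simp only [Pi.div_apply, Finset.sum_apply, Pi.smul_apply, smul_eq_mul]
    rw [← dft_mul_comp q f τ, Finset.sum_div]
    exact Finset.sum_congr rfl fun p _ ↦ mul_div_assoc _ _ _
  rw [hsum]
  exact Finset.sum_induction _ (CuspCond s) (fun _ _ ↦ CuspCond.add) cuspCond_zero
    fun p _ ↦ (hcomp p).smul _

/-- Spaces of forms are finite dimensional. -/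
theorem forms_finite (Γ : Subgroup SL(2, ℤ)) [Γ.FiniteIndex] (s : Bool) (k : ℤ) :
    FiniteDimensional ℂ (forms Γ s k) := by
  have : Fintype (Cusps Γ) := Fintype.ofFinite _
  rcases lt_or_ge k 0 with hk | hk
  · have : Subsingleton (forms Γ s k) :=
      ⟨fun a b ↦ Subtype.ext ((forms_neg_weight hk a.2).trans (forms_neg_weight hk b.2).symm)⟩
    infer_instance
  lift k to ℕ using hk
  induction k using Nat.strong_induction_on with | _ k ih =>
  have : FiniteDimensional ℂ (forms Γ s ((k : ℤ) - 12)) := by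
    rcases Nat.lt_or_ge k 12 with h | h
    · have : Subsingleton (forms Γ s ((k : ℤ) - 12)) := ⟨fun a b ↦ Subtype.ext
        ((forms_neg_weight (by omega) a.2).trans (forms_neg_weight (by omega) b.2).symm)⟩
      infer_instance
    · have := ih (k - 12) (by omega)
      rwa [Nat.cast_sub h] at this
  have hker : FiniteDimensional ℂ (LinearMap.ker (jetLin Γ s k)) := by
    let φ : LinearMap.ker (jetLin Γ s k) →ₗ[ℂ] forms Γ s ((k : ℤ) - 12) :=
      { toFun := fun f ↦ ⟨(f.1 : ℍ → ℂ) / disc,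
          div_disc_mem f.1.2 fun p ↦ congrFun (LinearMap.mem_ker.mp f.2) p⟩
        map_add' := fun a b ↦ Subtype.ext (funext fun τ ↦ by simp [add_div])
        map_smul' := fun c a ↦ Subtype.ext (funext fun τ ↦ by simp [mul_div_assoc]) }
    refine FiniteDimensional.of_injective φ fun a b hab ↦ ?_
    ext τ
    have := congrFun (congrArg Subtype.val hab) τ
    simpa [φ, div_left_inj' (disc_ne τ)] using this
  have hr : (LinearMap.range (jetLin Γ s k)).FG := IsNoetherian.noetherian _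
  rw [FiniteDimensional, Module.finite_def]
  refine Submodule.fg_of_fg_map_of_fg_inf_ker (jetLin Γ s k) ?_ ?_
  · rwa [Submodule.map_top]
  · rw [top_inf_eq]; exact (Submodule.fg_top _).mp hker.fg_top

end Fermat.Agent.Dimension
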