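import Fermat.Agent.Dimension.GradedBasis

/-!
# The evaluation matrix of a graded basis and the total weight

The determinant of the values of a graded basis at the translates has no zeros on `ℍ`, and its
order at infinity determines the total weight (`totalWeight_eq`).
-/

set_option autoImplicit false

open UpperHalfPlane Filter Matrix
open scoped Topology Manifold ModularForm MatrixGroups Classical

noncomputable section

namespace Fermat.Agent.Dimension

variable {Γ : Subgroup SL(2, ℤ)} {s : Bool}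

attribute [instance] GradedBasis.fintype

/-- Separation hypothesis: evaluation of forms at the translates of any point is onto. -/
def Separates (Γ : Subgroup SL(2, ℤ)) (s : Bool) : Prop :=
  ∀ τ : ℍ, Submodule.span ℂ {v : Coset Γ → ℂ |
    ∃ (k : ℤ) (f : ℍ → ℂ), f ∈ forms Γ s k ∧ v = fun c ↦ trans Γ k c f τ} = ⊤

/-- Cusp forms separate if forms do, as one may multiply by `Δ`. -/
lemma Separates.cusp (h : Separates Γ false) : Separates Γ true := fun τ ↦ by
  refine eq_top_iff.mpr ?_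
  rw [← h τ, Submodule.span_le]
  rintro v ⟨k, f, hf, rfl⟩
  have hmem : disc * f ∈ forms Γ true (12 + k) := by
    refine ⟨disc_mem.1.mul hf.1, fun γ hγ ↦ by rw [slash_mul_L disc_mem, hf.2.1 γ hγ], fun g ↦ ?_⟩
    rw [slash_mul_L disc_mem]
    exact ZeroAtFilter.mul_boundedAtFilter disc_zero (hf.2.2 g).bounded
  have hv : (fun c ↦ trans Γ k c f τ) = (disc τ)⁻¹ • fun c ↦ trans Γ (12 + k) c (disc * f) τ := by
    funext c
    simp [trans_mul_L disc_mem, disc_ne τ]
  rw [hv]
  exact Submodule.smul_mem _ _ (Submodule.subset_span ⟨_, _, hmem, rfl⟩)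

variable (B : GradedBasis Γ s)

/-- The evaluation matrix. -/
def evalMatrix (τ : ℍ) : Matrix (Coset Γ) B.ι ℂ :=
  Matrix.of fun c b ↦ trans Γ (B.wt b) c (B.fn b) τ

lemma evalMatrix_span (h : Separates Γ s) (τ : ℍ) :
    LinearMap.range (evalMatrix B τ).mulVecLin = ⊤ := by
  refine eq_top_iff.mpr ?_
  rw [← h τ, Submodule.span_le]
  rintro v ⟨k, f, hf, rfl⟩
  obtain ⟨φ, hφ, rfl⟩ := B.span k f hf
  refine ⟨fun b ↦ φ b τ, funext fun c ↦ ?_⟩
  simp only [Matrix.mulVecLin_apply, Matrix.mulVec, dotProduct, evalMatrix, Matrix.of_apply,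
    trans_sum, Finset.sum_apply]
  refine Finset.sum_congr rfl fun b _ ↦ ?_
  rw [trans_mul_L' (hφ b) (sub_add_cancel k _), Pi.mul_apply, mul_comm]

variable [Fintype (Coset Γ)]

/-- A separating graded basis has `[SL₂(ℤ) : Γ]` elements. -/
lemma card_index (h : Separates Γ s) : Fintype.card B.ι = Fintype.card (Coset Γ) := by
  refine le_antisymm (by simpa using B.card_le) ?_
  have h1 := LinearMap.finrank_range_le (evalMatrix B UpperHalfPlane.I).mulVecLin
  rw [evalMatrix_span B h, finrank_top] at h1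
  simpa using h1

/-- Indexing of the basis by cosets. -/
def rowEquiv (h : Separates Γ s) : Coset Γ ≃ B.ι := Fintype.equivOfCardEq (card_index B h).symm

/-- Square evaluation matrix. -/
def squareMatrix (h : Separates Γ s) (τ : ℍ) : Matrix (Coset Γ) (Coset Γ) ℂ :=
  (evalMatrix B τ).submatrix id (rowEquiv B h)

lemma squareMatrix_apply (h : Separates Γ s) (τ : ℍ) (c c' : Coset Γ) :
    squareMatrix B h τ c c' =
      trans Γ (B.wt (rowEquiv B h c')) c (B.fn (rowEquiv B h c')) τ := rfl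

lemma squareMatrix_isUnit (h : Separates Γ s) (τ : ℍ) : IsUnit (squareMatrix B h τ) := by
  rw [← Matrix.mulVec_surjective_iff_isUnit]
  intro v
  have : v ∈ LinearMap.range (evalMatrix B τ).mulVecLin := by simp [evalMatrix_span B h τ]
  obtain ⟨x, rfl⟩ := this
  refine ⟨x ∘ rowEquiv B h, ?_⟩
  rw [squareMatrix, Matrix.mulVecLin_apply, Matrix.submatrix_mulVec_equiv]
  simp [Function.comp_assoc]

/-- The evaluation determinant has no zeros. -/
lemma det_ne_zero (h : Separates Γ s) (τ : ℍ) : (squareMatrix B h τ).det ≠ 0 :=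
  ((Matrix.isUnit_iff_isUnit_det _).mp (squareMatrix_isUnit B h τ)).ne_zero

/-- Relation between fixed points and weights at a point fixed by `g`. -/
lemma fixed_count (h : Separates Γ s) (g : SL(2, ℤ)) (τ : ℍ) (hg : g • τ = τ) :
    (Nat.card {c : Coset Γ // g • c = c} : ℂ) =
      ∑ b : B.ι, (denom (g : GL (Fin 2) ℝ) τ : ℂ) ^ (-(B.wt b : ℤ)) := by
  set W := squareMatrix B h τ with hW
  set δ : Coset Γ → ℂ := fun c ↦
    (denom (g : GL (Fin 2) ℝ) τ : ℂ) ^ (-(B.wt (rowEquiv B h c) : ℤ)) with hδ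
  set Pm : Matrix (Coset Γ) (Coset Γ) ℂ :=
    Matrix.of fun c c' ↦ if g⁻¹ • c = c' then 1 else 0 with hPm
  have hrel : Pm * W = W * Matrix.diagonal δ := by
    ext c c'
    rw [Matrix.mul_diagonal, Matrix.mul_apply]
    simp only [hPm, Matrix.of_apply, ite_mul, one_mul, zero_mul, Finset.sum_ite_eq, Finset.mem_univ,
      if_true, hW, squareMatrix_apply]
    rw [← trans_slash (B.mem _), ModularForm.SL_slash_apply, hg]
  have htr : Matrix.trace Pm = Matrix.trace (Matrix.diagonal δ) := by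
    have hu := (Matrix.isUnit_iff_isUnit_det _).mp (squareMatrix_isUnit B h τ)
    calc Matrix.trace Pm = Matrix.trace (Pm * (W * W⁻¹)) := by
          rw [Matrix.mul_nonsing_inv W hu, mul_one]
      _ = Matrix.trace (W * Matrix.diagonal δ * W⁻¹) := by rw [← mul_assoc, hrel]
      _ = Matrix.trace (Matrix.diagonal δ) := by
          rw [Matrix.trace_mul_comm, ← mul_assoc, Matrix.nonsing_inv_mul W hu, one_mul]
  have h1 : Matrix.trace Pm = (Nat.card {c : Coset Γ // g • c = c} : ℂ) := by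
    simp only [Matrix.trace, Matrix.diag, hPm, Matrix.of_apply, Finset.sum_boole]
    rw [Nat.card_eq_fintype_card, Fintype.card_subtype]
    congr 2
    ext c
    rw [Finset.mem_filter, Finset.mem_filter, inv_smul_eq_iff, eq_comm]
  rw [← h1, htr, Matrix.trace_diagonal]
  exact Equiv.sum_comp (rowEquiv B h) fun b ↦
    (denom (g : GL (Fin 2) ℝ) τ : ℂ) ^ (-(B.wt b : ℤ))

/-- Total weight. -/
def totalWeight : ℕ := ∑ b : B.ι, B.wt b

/-- The square of the determinant transforms with weight twice the total weight. -/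
lemma det_smul_point (h : Separates Γ s) (γ : SL(2, ℤ)) (τ : ℍ) :
    (squareMatrix B h (γ • τ)).det ^ 2 =
      denom (γ : GL (Fin 2) ℝ) τ ^ (2 * (totalWeight B : ℤ)) * (squareMatrix B h τ).det ^ 2 := by
  have hmat : squareMatrix B h (γ • τ) =
      (squareMatrix B h τ).submatrix (MulAction.toPerm γ⁻¹ : Equiv.Perm (Coset Γ)) id *
        Matrix.diagonal fun c ↦
          (denom (γ : GL (Fin 2) ℝ) τ : ℂ) ^ (B.wt (rowEquiv B h c) : ℤ) := by
    ext c c'
    rw [Matrix.mul_diagonal, Matrix.submatrix_apply, squareMatrix_apply, squareMatrix_apply,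
      trans_smul_point (B.mem _), id, MulAction.toPerm_apply, mul_comm]
  rw [hmat, Matrix.det_mul, Matrix.det_permute, Matrix.det_diagonal]
  have hp : ∏ c : Coset Γ, (denom (γ : GL (Fin 2) ℝ) τ : ℂ) ^ (B.wt (rowEquiv B h c) : ℤ) =
      (denom (γ : GL (Fin 2) ℝ) τ : ℂ) ^ (totalWeight B : ℤ) := by
    simp only [zpow_natCast, Finset.prod_pow_eq_pow_sum]
    congr 1
    exact Equiv.sum_comp (rowEquiv B h) fun b ↦ B.wt b
  rw [hp, mul_comm (2 : ℤ), _root_.zpow_mul, _root_.zpow_two, mul_pow, mul_pow]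
  have hsign : (((Equiv.Perm.sign (MulAction.toPerm γ⁻¹ : Equiv.Perm (Coset Γ))) : ℤ) : ℂ) ^ 2
      = 1 := by
    rcases Int.units_eq_one_or (Equiv.Perm.sign (MulAction.toPerm γ⁻¹ : Equiv.Perm (Coset Γ)))
      with h | h <;> simp [h]
  rw [hsign]; ring

lemma det_mdiff (h : Separates Γ s) : MDiff (fun τ ↦ (squareMatrix B h τ).det) := by
  have : (fun τ ↦ (squareMatrix B h τ).det) = ∑ σ : Equiv.Perm (Coset Γ),
      ((Equiv.Perm.sign σ : ℤ) : ℂ) • ∏ c, fun τ ↦ squareMatrix B h τ (σ c) c := by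
    funext τ
    rw [Matrix.det_apply, Finset.sum_apply]
    exact Finset.sum_congr rfl fun σ _ ↦ by simp [Units.smul_def, zsmul_eq_mul]
  rw [this]
  refine MDifferentiable.sum fun σ _ ↦ (MDifferentiable.prod fun c _ ↦ ?_).const_smul _
  exact trans_mdiff (B.mem _) _

variable [Γ.FiniteIndex] [Fintype (Cusps Γ)]

/-- Normalised jets of the basis as a function of `τ`. -/
def jetMatrix (h : Separates Γ s) (τ : ℍ) : Matrix (JetIdx Γ) (JetIdx Γ) ℂ :=
  Matrix.of fun p q ↦ jetFun Γ s (B.wt (rowEquiv B h (jetEquiv q))) p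
    (B.fn (rowEquiv B h (jetEquiv q))) τ

/-- Jets of the basis. -/
def jetMatrixInfty (h : Separates Γ s) : Matrix (JetIdx Γ) (JetIdx Γ) ℂ :=
  Matrix.of fun p q ↦ jet Γ s (B.wt (rowEquiv B h (jetEquiv q))) p
    (B.fn (rowEquiv B h (jetEquiv q)))

lemma squareMatrix_eq (h : Separates Γ s) (τ : ℍ) :
    (squareMatrix B h τ).submatrix jetEquiv jetEquiv =
      dft Γ * (Matrix.diagonal fun p ↦ qpow (expoQ Γ s p) τ) * jetMatrix B h τ := by
  ext p q
  rw [Matrix.submatrix_apply, squareMatrix_apply, mul_assoc, Matrix.mul_apply,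
    show jetEquiv p = jetCoset Γ p from rfl, ← dft_mul_comp p]
  refine Finset.sum_congr rfl fun x _ ↦ ?_
  rw [Matrix.diagonal_mul, jetMatrix, Matrix.of_apply, jetFun]
  have h1 : qpow (expoQ Γ s x) τ * qpow (-expoQ Γ s x) τ = 1 := by
    rw [← qpow_add]; simp [qpow_zero]
  linear_combination (-(dft Γ p x * comp Γ (B.wt (rowEquiv B h (jetEquiv q))) x
    (B.fn (rowEquiv B h (jetEquiv q))) τ)) * h1

lemma tendsto_jetMatrix_det (h : Separates Γ s) :
    Tendsto (fun τ ↦ (jetMatrix B h τ).det) atImInfty (𝓝 (jetMatrixInfty B h).det) := by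
  have hm : Tendsto (jetMatrix B h) atImInfty (𝓝 (jetMatrixInfty B h)) :=
    tendsto_pi_nhds.mpr fun p ↦ tendsto_pi_nhds.mpr fun q ↦ tendsto_jet (B.mem _) p
  exact ((continuous_id.matrix_det).tendsto _).comp hm

/-- The jets of the basis at the cusps are linearly independent. -/
lemma jetMatrixInfty_det_ne_zero (hneg : (-1 : SL(2, ℤ)) ∈ Γ) (h : Separates Γ s) :
    (jetMatrixInfty B h).det ≠ 0 := by
  intro h0
  obtain ⟨v, hv, hv0⟩ := Matrix.exists_mulVec_eq_zero_iff.mpr h0
  set e : JetIdx Γ ≃ B.ι := jetEquiv.trans (rowEquiv B h)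
  set t : B.ι → ℂ := fun b ↦ v (e.symm b) with ht
  set K : ℕ := 2 * totalWeight B + 4 with hK
  -- odd weights do not occur
  have heven : ∀ b, Even (B.wt b) := fun b ↦ by
    rcases Nat.even_or_odd (B.wt b) with he | ho
    · exact he
    have hz := forms_odd hneg (Odd.natCast ho) (B.mem b)
    have hmem : ∀ b', (fun b' ↦ if b' = b then (1 : ℍ → ℂ) else 0) b' ∈
        L ((B.wt b : ℤ) - B.wt b') := fun b' ↦ by
      dsimp only
      split_ifs with hb
      · subst hb; rw [sub_self]; exact one_mem_L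
      · exact zero_mem _
    have := B.indep _ _ hmem (by simp [hz]) b
    simp at this
  have hmon : ∀ b, ∃ g ∈ L ((K : ℤ) - B.wt b), Tendsto g atImInfty (𝓝 1) := fun b ↦ by
    have hle : B.wt b ≤ totalWeight B :=
      Finset.single_le_sum (f := B.wt) (fun _ _ ↦ Nat.zero_le _) (Finset.mem_univ b)
    obtain ⟨x, y, hxy, -, -⟩ := exists_mon (K - B.wt b)
      (by rw [Nat.even_sub (by omega)]; simp [hK, heven b, parity_simps])
      (Or.inl (by omega))
    refine ⟨e4 ^ x * e6 ^ y, ?_, tendsto_monomial x y⟩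
    have := monomial_mem x y
    rwa [show (4 * x + 6 * y : ℤ) = (K : ℤ) - B.wt b by omega] at this
  choose g hg hg1 using hmon
  set F : ℍ → ℂ := ∑ b, t b • (g b * B.fn b) with hF
  have hterm : ∀ b, g b * B.fn b ∈ forms Γ s (K : ℤ) := fun b ↦
    mul_mem_forms' (hg b) (B.mem b) (by ring)
  have hFmem : F ∈ forms Γ s (K : ℤ) := sum_mem fun b _ ↦ Submodule.smul_mem _ _ (hterm b)
  have hjet : ∀ p, jet Γ s (K : ℤ) p F = 0 := fun p ↦ by
    have hlin : jet Γ s (K : ℤ) p F = ∑ b, t b * jet Γ s (K : ℤ) p (g b * B.fn b) := by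
      have he : (⟨F, hFmem⟩ : forms Γ s (K : ℤ)) = ∑ b, t b • ⟨_, hterm b⟩ :=
        Subtype.ext (by simp [hF, AddSubmonoidClass.coe_finsetSum])
      change jetLin Γ s (K : ℤ) ⟨F, hFmem⟩ p = _
      rw [he, map_sum, Finset.sum_apply]
      refine Finset.sum_congr rfl fun b _ ↦ ?_
      rw [map_smul]
      rfl
    rw [hlin, ← Equiv.sum_comp e]
    have := congrFun hv0 p
    simp only [Matrix.mulVec, dotProduct, jetMatrixInfty, Matrix.of_apply, Pi.zero_apply] at this
    rw [← this]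
    refine Finset.sum_congr rfl fun q _ ↦ ?_
    rw [jet_mul_L (hg _) (hg1 _) (B.mem _) (by ring) p, one_mul, ht]
    simp only [Equiv.symm_apply_apply]
    exact mul_comm _ _
  obtain ⟨φ, hφ, hφF⟩ := B.span _ _ (div_disc_mem hFmem hjet)
  have hψ : ∀ b, t b • g b - disc * φ b ∈ L ((K : ℤ) - B.wt b) := fun b ↦
    sub_mem (Submodule.smul_mem _ _ (hg b)) (L.mul_mem disc_mem (hφ b) (by ring))
  have hrel : ∑ b, (t b • g b - disc * φ b) * B.fn b = 0 := by
    simp only [sub_mul, Finset.sum_sub_distrib, mul_assoc, ← Finset.mul_sum, ← hφF, sub_eq_zero,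
      smul_mul_assoc, ← hF]
    funext τ
    simp [mul_div_cancel₀, disc_ne τ]
  refine hv (funext fun q ↦ ?_)
  have hb := sub_eq_zero.mp (B.indep _ _ hψ hrel (e q))
  have hlim' : Tendsto (t (e q) • g (e q)) atImInfty (𝓝 0) := by
    rw [hb]
    exact ZeroAtFilter.mul_boundedAtFilter disc_zero (L.bounded (hφ _))
  simpa [ht] using (tendsto_nhds_unique hlim' ((hg1 (e q)).const_smul (t (e q)))).symm

omit [Fintype (Coset Γ)] in
lemma sum_expoQ (s : Bool) :
    ∑ p : JetIdx Γ, expoQ Γ s p = ∑ o : Cusps Γ,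
      (((width Γ o : ℝ) - 1) / 2 + if s then 1 else 0) := by
  rw [Fintype.sum_sigma]
  refine Finset.sum_congr rfl fun o _ ↦ ?_
  have hw := width_pos o
  simp only [expoQ, ← Finset.sum_div]
  have hn : (∑ n : Fin (width Γ o), (n : ℕ) : ℝ) * 2 = (width Γ o : ℝ) * (width Γ o - 1) := by
    rw [Fin.sum_univ_eq_sum_range (fun n ↦ ((n : ℕ) : ℝ))]
    have := congrArg (fun n : ℕ ↦ (n : ℝ)) (Finset.sum_range_id_mul_two (width Γ o))
    push_cast [Nat.cast_sub hw] at this
    linarith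
  have hsum : (∑ n : Fin (width Γ o), (expo Γ s ⟨o, n⟩ : ℝ)) =
      (∑ n : Fin (width Γ o), (n : ℕ) : ℝ) + if s then (width Γ o : ℝ) else 0 := by
    cases s with
    | false => simp [expo]
    | true =>
      simp only [expo, true_and, if_true]
      rw [← sub_eq_iff_eq_add', ← Finset.sum_sub_distrib]
      rw [Finset.sum_eq_single ⟨0, hw⟩ (fun b _ hb ↦ ?_) (fun h ↦ absurd (Finset.mem_univ _) h)]
      · simp
      · simp [Fin.val_ne_of_ne hb]
  rw [hsum]
  cases s <;> field_simp <;> simp only [Bool.false_eq_true, if_false, if_true] <;>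
    linarith

/-- A level one form without zeros, also at infinity, has weight zero. -/
lemma weight_eq_zero_of_nonvanishing {w : ℤ} {f : ℍ → ℂ} {c : ℂ} (hf : f ∈ L w)
    (hne : ∀ τ, f τ ≠ 0) (hlim : Tendsto f atImInfty (𝓝 c)) (hc : c ≠ 0) : w = 0 := by
  rcases lt_trichotomy w 0 with hw | hw | hw
  · exact absurd (congrFun (L_neg hw hf) UpperHalfPlane.I) (hne _)
  · exact hw
  have hsl : ∀ γ : SL(2, ℤ), ((1 : ℍ → ℂ) / f) ∣[-w] γ = 1 / f := fun γ ↦ by
    rw [show -w = 0 - w by ring, ModularForm.div_slash_SL2, hf.2.1 γ (Subgroup.mem_top _),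
      ModularForm.is_invariant_one]
  have hinv : (1 : ℍ → ℂ) / f ∈ L (-w) :=
    ⟨mdifferentiable_const.div hf.1 hne, fun γ _ ↦ hsl γ, fun g ↦ by
      rw [hsl g]
      exact CuspCond.div_of_tendsto (s := false) (const_boundedAtFilter _ (1 : ℂ)) hlim hc⟩
  have := congrFun (L_neg (by omega) hinv) UpperHalfPlane.I
  simp [hne _] at this

/-- The total weight of a graded basis. -/
theorem totalWeight_eq (hneg : (-1 : SL(2, ℤ)) ∈ Γ) (h : Separates Γ s) :
    (totalWeight B : ℤ) = 6 * ((Fintype.card (Coset Γ) : ℤ) +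
      if s then (Fintype.card (Cusps Γ) : ℤ) else -(Fintype.card (Cusps Γ) : ℤ)) := by
  -- exponent
  set m : ℕ := ∑ o : Cusps Γ, (if s then width Γ o + 1 else width Γ o - 1) with hm
  have hcard : ∑ o : Cusps Γ, (width Γ o : ℤ) = (Fintype.card (Coset Γ) : ℤ) := by
    rw [← Fintype.card_congr (jetEquiv (Γ := Γ)), Fintype.card_sigma]
    simp
  have hmval : (m : ℤ) = (Fintype.card (Coset Γ) : ℤ) +
      if s then (Fintype.card (Cusps Γ) : ℤ) else -(Fintype.card (Cusps Γ) : ℤ) := by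
    rw [hm, Nat.cast_sum, ← hcard]
    cases s with
    | false =>
      simp only [Bool.false_eq_true, if_false]
      rw [Finset.sum_congr rfl fun o _ ↦ Nat.cast_sub (width_pos o), Finset.sum_sub_distrib]
      simp [sub_eq_add_neg]
    | true => simp [Finset.sum_add_distrib]
  have hm2 : (m : ℝ) = 2 * ∑ p : JetIdx Γ, expoQ Γ s p := by
    rw [sum_expoQ, hm, Nat.cast_sum, Finset.mul_sum]
    refine Finset.sum_congr rfl fun o _ ↦ ?_
    have hw := width_pos o
    cases s
    · simp only [Bool.false_eq_true, if_false]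
      push_cast [Nat.cast_sub hw]; ring
    · simp only [if_true]
      push_cast; ring
  set D : ℍ → ℂ := fun τ ↦ (squareMatrix B h τ).det with hD
  set J : ℍ → ℂ := fun τ ↦ (jetMatrix B h τ).det with hJ
  have hDJ : ∀ τ, D τ ^ 2 = (dft Γ).det ^ 2 * (qpow 1 τ ^ m * J τ ^ 2) := fun τ ↦ by
    simp only [hD, hJ]
    rw [← Matrix.det_submatrix_equiv_self jetEquiv (squareMatrix B h τ), squareMatrix_eq,
      Matrix.det_mul, Matrix.det_mul, Matrix.det_diagonal, ← qpow_sum, ← qpow_natCast, hm2,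
      two_mul, qpow_add]
    ring
  set Φ : ℍ → ℂ := D ^ 2 / disc ^ m with hΦ
  have hlim : Tendsto Φ atImInfty
      (𝓝 ((dft Γ).det ^ 2 * ((jetMatrixInfty B h).det ^ 2 / 1 ^ m))) := by
    refine ((((tendsto_jetMatrix_det B h).pow 2).div (tendsto_discriminant_div_q.pow m)
      (by simp)).const_mul ((dft Γ).det ^ 2)).congr fun τ ↦ ?_
    simp only [hΦ, hJ, Pi.div_apply, Pi.pow_apply, hDJ τ, mul_pow]
    have hq : qpow 1 τ * qpow (-1) τ = 1 := by rw [← qpow_add]; simp [qpow_zero]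
    have hq' : qpow (-1) τ ^ m = (qpow 1 τ ^ m)⁻¹ :=
      eq_inv_of_mul_eq_one_right (by rw [← mul_pow, hq, one_pow])
    change _ * (_ / (disc τ ^ m * _)) = _
    rw [hq']
    field_simp
  have hne : ∀ τ, Φ τ ≠ 0 := fun τ ↦
    div_ne_zero (pow_ne_zero _ (det_ne_zero B h τ)) (pow_ne_zero _ (disc_ne τ))
  have hsl : ∀ γ : SL(2, ℤ), Φ ∣[2 * (totalWeight B : ℤ) - m * 12] γ = Φ := fun γ ↦ by
    rw [hΦ, ModularForm.div_slash_SL2, (L.pow_mem disc_mem m).2.1 γ (Subgroup.mem_top _)]
    congr 1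
    funext τ
    rw [ModularForm.SL_slash_apply, Pi.pow_apply, Pi.pow_apply, hD]
    simp only
    rw [det_smul_point, mul_comm, ← mul_assoc, ← zpow_add₀ (denom_ne_zero _ τ)]
    simp
  have hb := isBoundedAtImInfty_of_tendsto hlim
  have hmem : Φ ∈ L (2 * (totalWeight B : ℤ) - m * 12) :=
    ⟨((det_mdiff B h).pow 2).div (L.pow_mem disc_mem m).1 fun τ ↦ pow_ne_zero _ (disc_ne τ),
      fun γ _ ↦ hsl γ, fun g ↦ by rw [hsl g]; exact hb⟩
  have := weight_eq_zero_of_nonvanishing hmem hne hlim (mul_ne_zero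
    (pow_ne_zero _ dft_det_ne_zero)
    (by simpa using jetMatrixInfty_det_ne_zero B hneg h))
  omega

end Fermat.Agent.Dimension
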