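import Fermat.Agent.Dimension.Cusp

/-!
# Forms are a free module over level one forms

`E₄, E₆` is a regular sequence, so lifts of bases of `forms k / (E₄ forms (k-4) + E₆ forms (k-6))`
form a homogeneous basis. The jets at the cusps show that it has at most `[SL₂(ℤ) : Γ]` elements.
-/

set_option autoImplicit false

open UpperHalfPlane Filter
open scoped Topology Manifold ModularForm MatrixGroups Classical

noncomputable section

namespace Fermat.Agent.Dimension

variable (Γ : Subgroup SL(2, ℤ)) (s : Bool)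

/-- A homogeneous basis of the forms as a module over level one forms. -/
structure GradedBasis where
  /-- index type -/
  ι : Type
  /-- finiteness -/
  fintype : Fintype ι
  /-- weights -/
  wt : ι → ℕ
  /-- the forms -/
  fn : ι → ℍ → ℂ
  mem : ∀ b, fn b ∈ forms Γ s (wt b)
  span : ∀ (k : ℤ), ∀ f ∈ forms Γ s k,
    ∃ φ : ι → ℍ → ℂ, (∀ b, φ b ∈ L (k - wt b)) ∧ f = ∑ b, φ b * fn b
  indep : ∀ (k : ℤ) (φ : ι → ℍ → ℂ),
    (∀ b, φ b ∈ L (k - wt b)) → ∑ b, φ b * fn b = 0 → ∀ b, φ b = 0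
  card_le : Nat.card ι ≤ Nat.card (Coset Γ)

/-- The part of `forms k` coming from lower weight. -/
def lowPart (k : ℤ) : Submodule ℂ (ℍ → ℂ) :=
  (forms Γ s (k - 4)).map (LinearMap.mulLeft ℂ e4) ⊔
    (forms Γ s (k - 6)).map (LinearMap.mulLeft ℂ e6)

variable {Γ s} {k l : ℤ}

lemma lowPart_le : lowPart Γ s k ≤ forms Γ s k := by
  refine sup_le ?_ ?_ <;> rintro _ ⟨f, hf, rfl⟩
  · exact mul_mem_forms' e4_mem hf (by ring)
  · exact mul_mem_forms' e6_mem hf (by ring)

lemma mem_lowPart_e4 {g : ℍ → ℂ} (hg : g ∈ forms Γ s (k - 4)) : e4 * g ∈ lowPart Γ s k :=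
  Submodule.mem_sup_left ⟨g, hg, rfl⟩

lemma mem_lowPart_e6 {g : ℍ → ℂ} (hg : g ∈ forms Γ s (k - 6)) : e6 * g ∈ lowPart Γ s k :=
  Submodule.mem_sup_right ⟨g, hg, rfl⟩

/-- `E₄, E₆` is a regular sequence on forms. -/
lemma regular {X Y : ℍ → ℂ} (hX : X ∈ forms Γ s k) (hY : Y ∈ forms Γ s l) (hkl : k + 6 = l + 4)
    (h : e6 * X = e4 * Y) : ∃ Z ∈ forms Γ s (k - 4), X = e4 * Z := by
  have h' : ∀ τ, e6 τ * X τ = e4 τ * Y τ := fun τ ↦ congrFun h τ
  set Z : ℍ → ℂ := fun τ ↦ if e4 τ = 0 then Y τ / e6 τ else X τ / e4 τ with hZ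
  have h6 : ∀ τ, e4 τ = 0 → e6 τ ≠ 0 := fun τ h ↦ (e4_or_e6 τ).resolve_left (not_not.mpr h)
  have hX' : X = e4 * Z := by
    funext τ
    simp only [Pi.mul_apply, hZ]
    split_ifs with h4
    · have := h' τ
      rw [h4, zero_mul] at this ⊢
      exact (mul_eq_zero.mp this).resolve_left (h6 τ h4)
    · field_simp
  have hY' : Y = e6 * Z := by
    funext τ
    simp only [Pi.mul_apply, hZ]
    split_ifs with h4
    · field_simp [h6 τ h4]
    · have := h' τ
      field_simp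
      linear_combination -this
  refine ⟨Z, ⟨fun τ ↦ ?_, fun γ hγ ↦ ?_, fun g ↦ ?_⟩, hX'⟩
  · rcases e4_or_e6 τ with h4 | h4
    · refine (MDifferentiableAt.div (hX.1 τ) (e4_mem.1 τ) h4).congr_of_eventuallyEq ?_
      filter_upwards [e4_mem.1.continuous.continuousAt.eventually_ne h4] with z hz
      simp [hX', hz]
    · refine (MDifferentiableAt.div (hY.1 τ) (e6_mem.1 τ) h4).congr_of_eventuallyEq ?_
      filter_upwards [e6_mem.1.continuous.continuousAt.eventually_ne h4] with z hz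
      simp [hY', hz]
  · have h4 : e4 * (Z ∣[k - 4] γ) = X := by
      rw [← slash_mul_L e4_mem (k := k - 4), add_sub_cancel, ← hX', hX.2.1 γ hγ]
    have h6' : e6 * (Z ∣[k - 4] γ) = Y := by
      rw [← slash_mul_L e6_mem (k := k - 4), ← hY', show (6 : ℤ) + (k - 4) = l by omega,
        hY.2.1 γ hγ]
    funext τ
    rcases e4_or_e6 τ with h | h
    · exact mul_left_cancel₀ h ((congrFun h4 τ).trans (congrFun hX' τ))
    · exact mul_left_cancel₀ h ((congrFun h6' τ).trans (congrFun hY' τ))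
  · have h4 : e4 * (Z ∣[k - 4] g) = X ∣[k] g := by
      rw [← slash_mul_L e4_mem (k := k - 4), add_sub_cancel, ← hX']
    refine ((hX.2.2 g).div_of_tendsto tendsto_e4 one_ne_zero).congr ?_
    filter_upwards [tendsto_e4.eventually_ne one_ne_zero] with τ hτ
    rw [← h4]
    simp [hτ]

lemma regular_pow (n : ℕ) : ∀ {k : ℤ} {X Y : ℍ → ℂ}, X ∈ forms Γ s k →
    Y ∈ forms Γ s (k + 6 * n - 4) → e6 ^ n * X = e4 * Y →
      ∃ Z ∈ forms Γ s (k - 4), X = e4 * Z := by
  induction n with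
  | zero => exact fun {k X Y} _ hY h ↦ ⟨Y, by simpa using hY, by simpa using h⟩
  | succ n ih =>
    intro k X Y hX hY h
    obtain ⟨Z, hZ, hXZ⟩ := ih (X := e6 * X) (mul_mem_forms' e6_mem hX (rfl : (6 : ℤ) + k = _))
      (by convert hY using 2; push_cast; ring) (by rw [← h, pow_succ]; ring)
    exact regular hX hZ (by ring) hXZ

section Generators

variable (Γ s)

lemma exists_compl (k : ℤ) : ∃ C : Submodule ℂ (ℍ → ℂ), C ≤ forms Γ s k ∧
    lowPart Γ s k ⊓ C = ⊥ ∧ lowPart Γ s k ⊔ C = forms Γ s k := by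
  obtain ⟨C, hC⟩ := Submodule.exists_isCompl ((lowPart Γ s k).comap (forms Γ s k).subtype)
  refine ⟨C.map (forms Γ s k).subtype, Submodule.map_subtype_le _ _, ?_, ?_⟩
  · rw [eq_bot_iff]
    rintro x ⟨hx, y, hy, rfl⟩
    have : y ∈ (lowPart Γ s k).comap (forms Γ s k).subtype ⊓ C := ⟨hx, hy⟩
    rw [hC.inf_eq_bot] at this
    simp [(Submodule.mem_bot ℂ).mp this]
  · conv_rhs => rw [← Submodule.map_subtype_top (forms Γ s k), ← hC.sup_eq_top, Submodule.map_sup,
      Submodule.map_comap_eq, Submodule.range_subtype, inf_eq_right.mpr lowPart_le]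

/-- A complement of `lowPart`. -/
def compl (k : ℤ) : Submodule ℂ (ℍ → ℂ) := (exists_compl Γ s k).choose

lemma compl_le (k : ℤ) : compl Γ s k ≤ forms Γ s k := (exists_compl Γ s k).choose_spec.1

variable [Γ.FiniteIndex]

instance compl_finite (k : ℤ) : FiniteDimensional ℂ (compl Γ s k) :=
  have := forms_finite Γ s k
  Submodule.finiteDimensional_of_le (compl_le Γ s k)

/-- Index type of the generators. -/
abbrev GenIdx : Type := Σ k : ℕ, Fin (Module.finrank ℂ (compl Γ s (k : ℤ)))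

/-- The generators. -/
def gen (b : GenIdx Γ s) : ℍ → ℂ :=
  (Module.finBasis ℂ (compl Γ s (b.1 : ℤ)) b.2 : ℍ → ℂ)

lemma gen_mem (b : GenIdx Γ s) : gen Γ s b ∈ forms Γ s b.1 := compl_le Γ s _ (Subtype.mem _)

variable {Γ s}

lemma gen_indep_aux (k0 : ℤ) (t : Finset (GenIdx Γ s)) (ht : ∀ b ∈ t, (b.1 : ℤ) = k0)
    (c : GenIdx Γ s → ℂ) (hmem : ∑ b ∈ t, c b • gen Γ s b ∈ lowPart Γ s k0) :
    ∀ b ∈ t, c b = 0 := by
  intro b hb
  obtain ⟨k, i⟩ := b
  obtain rfl : (k : ℤ) = k0 := ht _ hb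
  set c' : Fin (Module.finrank ℂ (compl Γ s (k : ℤ))) → ℂ :=
    fun j ↦ if ⟨k, j⟩ ∈ t then c ⟨k, j⟩ else 0 with hc'
  have hsum : ∑ b ∈ t, c b • gen Γ s b =
      ((∑ j, c' j • Module.finBasis ℂ (compl Γ s (k : ℤ)) j : compl Γ s (k : ℤ)) : ℍ → ℂ) := by
    have heq : t = (Finset.univ.filter fun j ↦ (⟨k, j⟩ : GenIdx Γ s) ∈ t).map
        ⟨Sigma.mk k, sigma_mk_injective⟩ := by
      ext ⟨k', j⟩
      constructor
      · intro h
        obtain rfl : k' = k := Int.ofNat_inj.mp (ht _ h)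
        simpa using h
      · simp only [Finset.mem_map, Finset.mem_filter, Finset.mem_univ, true_and]
        rintro ⟨a, ha, h⟩
        exact h ▸ ha
    rw [AddSubmonoidClass.coe_finsetSum]
    conv_lhs => rw [heq, Finset.sum_map, Finset.sum_filter]
    refine Finset.sum_congr rfl fun j _ ↦ ?_
    simp only [hc', Function.Embedding.coeFn_mk, Submodule.coe_smul, gen]
    split_ifs <;> simp
  rw [hsum] at hmem
  have h0 : (∑ j, c' j • Module.finBasis ℂ (compl Γ s (k : ℤ)) j : compl Γ s (k : ℤ)) = 0 := by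
    apply Subtype.ext
    exact (Submodule.mem_bot ℂ).mp
      ((exists_compl Γ s (k : ℤ)).choose_spec.2.1 ▸ (⟨hmem, Subtype.mem _⟩ : _ ∈ _ ⊓ compl Γ s k))
  have := Fintype.linearIndependent_iff.mp (Module.finBasis ℂ (compl Γ s (k : ℤ))).linearIndependent
    c' h0 i
  simpa [hc', hb] using this

/-- The generators span all forms over level one forms. -/
lemma gen_span (k : ℤ) : ∀ {f : ℍ → ℂ}, f ∈ forms Γ s k →
    ∃ (u : Finset (GenIdx Γ s)) (φ : GenIdx Γ s → ℍ → ℂ),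
      (∀ b, φ b ∈ L (k - b.1)) ∧ (∀ b ∉ u, φ b = 0) ∧ f = ∑ b ∈ u, φ b * gen Γ s b := by
  intro f hf
  rcases lt_or_ge k 0 with hk | hk
  · exact ⟨∅, 0, fun b ↦ zero_mem _, fun _ _ ↦ rfl, by simp [forms_neg_weight hk hf]⟩
  lift k to ℕ using hk
  induction k using Nat.strong_induction_on generalizing f with | _ k ih =>
  -- property to be propagated
  set P : (ℍ → ℂ) → Prop := fun f ↦ ∃ (u : Finset (GenIdx Γ s)) (φ : GenIdx Γ s → ℍ → ℂ),
      (∀ b, φ b ∈ L ((k : ℤ) - b.1)) ∧ (∀ b ∉ u, φ b = 0) ∧ f = ∑ b ∈ u, φ b * gen Γ s b with hP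
  have hadd : ∀ {f g}, P f → P g → P (f + g) := by
    rintro f g ⟨u, φ, h1, h2, rfl⟩ ⟨u', φ', h1', h2', rfl⟩
    refine ⟨u ∪ u', φ + φ', fun b ↦ add_mem (h1 b) (h1' b), fun b hb ↦ ?_, ?_⟩
    · simp only [Finset.mem_union, not_or] at hb
      simp [h2 b hb.1, h2' b hb.2]
    · simp only [Pi.add_apply, add_mul, Finset.sum_add_distrib]
      congr 1
      · exact Finset.sum_subset Finset.subset_union_left fun b _ hb ↦ by simp [h2 b hb]
      · exact Finset.sum_subset Finset.subset_union_right fun b _ hb ↦ by simp [h2' b hb]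
  have hlow : ∀ (m : ℕ) (e : ℍ → ℂ), 0 < m → e ∈ L (m : ℤ) →
      ∀ g ∈ forms Γ s ((k : ℤ) - m), P (e * g) := by
    intro m e hm he g hg
    rcases Nat.lt_or_ge k m with h | h
    · exact ⟨∅, 0, fun b ↦ zero_mem _, fun _ _ ↦ rfl,
        by simp [forms_neg_weight (by omega) hg]⟩
    · obtain ⟨u, φ, h1, h2, rfl⟩ := ih (k - m) (by omega) (f := g) (by rwa [Nat.cast_sub h])
      exact ⟨u, fun b ↦ e * φ b, fun b ↦ L.mul_mem he (h1 b) (by omega),
        fun b hb ↦ by simp [h2 b hb], by simp [Finset.mul_sum, mul_assoc]⟩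
  rw [← (exists_compl Γ s (k : ℤ)).choose_spec.2.2] at hf
  obtain ⟨low, hlowmem, top, htop, rfl⟩ := Submodule.mem_sup.mp hf
  refine hadd ?_ ?_
  · obtain ⟨a, ⟨g, hg, rfl⟩, b, ⟨g', hg', rfl⟩, rfl⟩ := Submodule.mem_sup.mp hlowmem
    exact hadd (hlow 4 e4 (by norm_num) e4_mem g hg) (hlow 6 e6 (by norm_num) e6_mem g' hg')
  · refine ⟨Finset.univ.map ⟨Sigma.mk k, sigma_mk_injective⟩,
      fun b ↦ if h : b.1 = k then
        ((Module.finBasis ℂ (compl Γ s (k : ℤ))).repr ⟨top, htop⟩ (h ▸ b.2)) • (1 : ℍ → ℂ)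
        else 0, fun b ↦ ?_, fun b hb ↦ ?_, ?_⟩
    · by_cases h : b.1 = k
      · simp only [dif_pos h]
        refine Submodule.smul_mem _ _ ?_
        rw [h, sub_self]; exact one_mem_L
      · simp only [dif_neg h]; exact zero_mem _
    · obtain ⟨k', i⟩ := b
      have : k' ≠ k := by rintro rfl; simp at hb
      simp [this]
    · conv_lhs => rw [show top = ((⟨top, htop⟩ : compl Γ s (k : ℤ)) : ℍ → ℂ) from rfl,
        ← (Module.finBasis ℂ (compl Γ s (k : ℤ))).sum_repr ⟨top, htop⟩]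
      rw [AddSubmonoidClass.coe_finsetSum, Finset.sum_map]
      exact Finset.sum_congr rfl fun i _ ↦ by simp [gen]

/-- The generators are independent over level one forms. -/
lemma gen_indep (k : ℤ) : ∀ (t : Finset (GenIdx Γ s)) (φ : GenIdx Γ s → ℍ → ℂ),
    (∀ b, φ b ∈ L (k - b.1)) → ∑ b ∈ t, φ b * gen Γ s b = 0 → ∀ b ∈ t, φ b = 0 := by
  rcases lt_or_ge k 0 with hk | hk
  · exact fun t φ h1 _ b _ ↦ L_neg (by omega) (h1 b)
  lift k to ℕ using hk
  induction k using Nat.strong_induction_on with | _ k ih =>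
  intro t φ h1 h0
  choose α hα n c hn hφ using fun b : GenIdx Γ s ↦ L_decomp _ (h1 b)
  have hA : ∀ b, α b * gen Γ s b ∈ forms Γ s ((k : ℤ) - 4) := fun b ↦
    mul_mem_forms' (hα b) (gen_mem Γ s b) (by ring)
  have hc : ∀ b ∈ t, c b = 0 := by
    by_contra! hne
    set T := t.filter fun b ↦ c b ≠ 0 with hT
    have hTne : T.Nonempty := by
      obtain ⟨b, hb, hcb⟩ := hne
      exact ⟨b, Finset.mem_filter.mpr ⟨hb, hcb⟩⟩
    obtain ⟨b0, hb0, hmin⟩ := Finset.exists_min_image T n hTne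
    set n0 := n b0
    have hw : ∀ b ∈ T, (k : ℤ) = b.1 + 6 * n b := fun b hb ↦ by
      have := hn b (Finset.mem_filter.mp hb).2; omega
    set X : ℍ → ℂ := ∑ b ∈ T, c b • (e6 ^ (n b - n0) * gen Γ s b) with hX
    set k0 : ℤ := (k : ℤ) - 6 * n0 with hk0
    have hXmem : X ∈ forms Γ s k0 := sum_mem fun b hb ↦ Submodule.smul_mem _ _
      (mul_mem_forms' (L.pow_mem e6_mem _) (gen_mem Γ s b)
        (by have := hw b hb; have := hmin b hb; push_cast [Nat.cast_sub this]; omega))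
    set Y : ℍ → ℂ := -∑ b ∈ t, α b * gen Γ s b with hY
    have hXY : e6 ^ n0 * X = e4 * Y := by
      have hsplit : ∑ b ∈ t, φ b * gen Γ s b =
          e4 * ∑ b ∈ t, α b * gen Γ s b + ∑ b ∈ T, c b • (e6 ^ n b * gen Γ s b) := by
        rw [hT, Finset.sum_filter, Finset.mul_sum, ← Finset.sum_add_distrib]
        refine Finset.sum_congr rfl fun b _ ↦ ?_
        conv_lhs => rw [hφ b]
        rw [add_mul, smul_mul_assoc, mul_assoc]
        rcases eq_or_ne (c b) 0 with hcb | hcb <;> simp [hcb]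
      rw [h0] at hsplit
      rw [hY, mul_neg, eq_neg_iff_add_eq_zero, hX, Finset.mul_sum]
      rw [add_comm]
      conv_rhs => rw [hsplit]
      congr 1
      refine Finset.sum_congr rfl fun b hb ↦ ?_
      rw [mul_smul_comm, ← mul_assoc, ← pow_add, Nat.add_sub_cancel' (hmin b hb)]
    obtain ⟨Z, hZ, hXZ⟩ := regular_pow n0 hXmem (by
      rw [hk0, show (k : ℤ) - 6 * n0 + 6 * n0 - 4 = (k : ℤ) - 4 by ring]
      exact neg_mem (sum_mem fun b _ ↦ hA b)) hXY
    have hlow : ∑ b ∈ T.filter (fun b ↦ n b = n0), c b • gen Γ s b ∈ lowPart Γ s k0 := by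
      have hsp : X = ∑ b ∈ T.filter (fun b ↦ n b = n0), c b • gen Γ s b +
          e6 * ∑ b ∈ T.filter (fun b ↦ ¬ n b = n0),
            c b • (e6 ^ (n b - n0 - 1) * gen Γ s b) := by
        rw [hX, ← Finset.sum_filter_add_sum_filter_not T (fun b ↦ n b = n0), Finset.mul_sum]
        congr 1
        · refine Finset.sum_congr rfl fun b hb ↦ ?_
          rw [(Finset.mem_filter.mp hb).2, Nat.sub_self, pow_zero, one_mul]
        · refine Finset.sum_congr rfl fun b hb ↦ ?_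
          obtain ⟨hbT, hbn⟩ := Finset.mem_filter.mp hb
          have := hmin b hbT
          rw [mul_smul_comm, ← mul_assoc, ← pow_succ',
            show n b - n0 - 1 + 1 = n b - n0 by omega]
      rw [← sub_eq_iff_eq_add.mpr hsp]
      refine sub_mem (hXZ ▸ mem_lowPart_e4 hZ) (mem_lowPart_e6 (sum_mem fun b hb ↦ ?_))
      obtain ⟨hbT, hbn⟩ := Finset.mem_filter.mp hb
      refine Submodule.smul_mem _ _ (mul_mem_forms' (L.pow_mem e6_mem _) (gen_mem Γ s b) ?_)
      have := hw b hbT; have := hmin b hbT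
      push_cast [Nat.cast_sub (show 1 ≤ n b - n0 by omega), Nat.cast_sub this]
      omega
    have := gen_indep_aux k0 _ (fun b hb ↦ by
      obtain ⟨hbT, hbn⟩ := Finset.mem_filter.mp hb
      have := hw b hbT; omega) c hlow b0 (Finset.mem_filter.mpr ⟨hb0, rfl⟩)
    exact (Finset.mem_filter.mp hb0).2 this
  have hα0 : ∑ b ∈ t, α b * gen Γ s b = 0 := by
    have he : e4 * ∑ b ∈ t, α b * gen Γ s b = 0 := by
      rw [← h0, Finset.mul_sum]
      refine Finset.sum_congr rfl fun b hb ↦ ?_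
      conv_rhs => rw [hφ b]
      simp [hc b hb, mul_assoc]
    refine ((UpperHalfPlane.mul_eq_zero_iff e4_mem.1 ?_).mp he).resolve_left e4_ne_zero
    exact (sum_mem fun b _ ↦ hA b : _ ∈ forms Γ s ((k : ℤ) - 4)).1
  intro b hb
  have hαb : α b = 0 := by
    rcases Nat.lt_or_ge k 4 with h | h
    · exact L_neg (by omega) (hα b)
    · exact ih (k - 4) (by omega) t α (fun b ↦ by
        have := hα b
        rwa [show (k : ℤ) - b.1 - 4 = ((k - 4 : ℕ) : ℤ) - b.1 by omega] at this) hα0 b hb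
  rw [hφ b, hαb, hc b hb]
  simp

variable (hneg : (-1 : SL(2, ℤ)) ∈ Γ)
include hneg

lemma gen_even (b : GenIdx Γ s) : Even b.1 := by
  rcases Nat.even_or_odd b.1 with h | h
  · exact h
  have h0 := forms_odd hneg (Odd.natCast h) (gen_mem Γ s b)
  exact absurd (Subtype.ext h0) ((Module.finBasis ℂ (compl Γ s (b.1 : ℤ))).ne_zero b.2)

/-- There are at most `[SL₂(ℤ) : Γ]` generators. -/
lemma gen_card_le (t : Finset (GenIdx Γ s)) : t.card ≤ Nat.card (Coset Γ) := by
  have : Fintype (Cusps Γ) := Fintype.ofFinite _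
  rw [← Nat.card_congr (jetEquiv (Γ := Γ)), Nat.card_eq_fintype_card]
  by_contra! hlt
  -- common weight and monomials
  set K : ℕ := 2 * (∑ b ∈ t, b.1) + 4 with hK
  have hle : ∀ b ∈ t, b.1 + 4 ≤ K := fun b hb ↦ by
    have := Finset.single_le_sum (f := fun b : GenIdx Γ s ↦ b.1) (fun _ _ ↦ Nat.zero_le _) hb
    omega
  have hmon : ∀ b : t, ∃ g ∈ L ((K : ℤ) - b.1.1), Tendsto g atImInfty (𝓝 1) := by
    rintro ⟨b, hb⟩
    have := hle b hb
    obtain ⟨x, y, hxy, -, -⟩ := exists_mon (K - b.1)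
      (by rw [Nat.even_sub (by omega)]; simp [hK, gen_even hneg b, parity_simps])
      (Or.inl (by omega))
    refine ⟨e4 ^ x * e6 ^ y, ?_, tendsto_monomial x y⟩
    have := monomial_mem x y
    rwa [show (4 * x + 6 * y : ℤ) = (K : ℤ) - b.1 by omega] at this
  choose g hg hg1 using hmon
  let F : (t → ℂ) →ₗ[ℂ] forms Γ s (K : ℤ) :=
    { toFun := fun a ↦ ⟨∑ b : t, a b • (g b * gen Γ s b.1), sum_mem fun b _ ↦
        Submodule.smul_mem _ _ (mul_mem_forms' (hg b) (gen_mem Γ s _) (by ring))⟩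
      map_add' := fun a a' ↦ Subtype.ext (by simp [add_smul, Finset.sum_add_distrib])
      map_smul' := fun r a ↦ Subtype.ext (by simp [Finset.smul_sum, smul_smul]) }
  have hker : LinearMap.ker ((jetLin Γ s K) ∘ₗ F) ≠ ⊥ :=
    LinearMap.ker_ne_bot_of_finrank_lt (by simpa using hlt)
  obtain ⟨a, ha, hane⟩ := Submodule.exists_mem_ne_zero_of_ne_bot hker
  have hG := div_disc_mem (F a).2 fun p ↦ congrFun (LinearMap.mem_ker.mp ha) p
  obtain ⟨u, φ, hφ1, hφ0, hφ⟩ := gen_span _ hG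
  set ψ : GenIdx Γ s → ℍ → ℂ :=
    fun b ↦ (if hb : b ∈ t then a ⟨b, hb⟩ • g ⟨b, hb⟩ else 0) - disc * φ b with hψ
  have hψ1 : ∀ b, ψ b ∈ L ((K : ℤ) - b.1) := fun b ↦ by
    refine sub_mem ?_ (L.mul_mem disc_mem (hφ1 b) (by ring))
    split_ifs with hb
    · exact Submodule.smul_mem _ _ (hg ⟨b, hb⟩)
    · exact zero_mem _
  have hψ0 : ∑ b ∈ t ∪ u, ψ b * gen Γ s b = 0 := by
    simp only [hψ, sub_mul, Finset.sum_sub_distrib, sub_eq_zero]
    rw [← Finset.sum_subset Finset.subset_union_left (fun b _ hb ↦ by simp [hb]),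
      ← Finset.sum_subset Finset.subset_union_right (fun b _ hb ↦ by simp [hφ0 b hb])]
    simp only [mul_assoc, ← Finset.mul_sum, ← hφ]
    rw [← Finset.sum_coe_sort]
    funext τ
    have : (F a : ℍ → ℂ) τ = (∑ b : t, a b • (g b * gen Γ s b.1)) τ := rfl
    simp [Finset.sum_apply, mul_div_cancel₀, disc_ne τ, this]
  refine hane (funext fun b ↦ ?_)
  have hb := gen_indep _ _ ψ hψ1 hψ0 b.1 (Finset.mem_union_left _ b.2)
  simp only [hψ, dif_pos b.2, sub_eq_zero] at hb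
  have hlim := (hg1 b).const_smul (a b)
  have hlim' : Tendsto (a b • g b) atImInfty (𝓝 0) := by
    rw [hb]
    exact ZeroAtFilter.mul_boundedAtFilter disc_zero (L.bounded (hφ1 b.1))
  have := tendsto_nhds_unique hlim' hlim
  simpa using this.symm

end Generators

/-- Existence of a graded basis. -/
theorem exists_gradedBasis (Γ : Subgroup SL(2, ℤ)) [Γ.FiniteIndex]
    (hneg : (-1 : SL(2, ℤ)) ∈ Γ) (s : Bool) : Nonempty (GradedBasis Γ s) := by
  have hfin : Finite (GenIdx Γ s) := by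
    by_contra h
    rw [not_finite_iff_infinite] at h
    obtain ⟨t, ht⟩ := Infinite.exists_subset_card_eq (GenIdx Γ s) (Nat.card (Coset Γ) + 1)
    have := gen_card_le hneg t
    omega
  have hft : Fintype (GenIdx Γ s) := Fintype.ofFinite _
  refine ⟨⟨GenIdx Γ s, hft, fun b ↦ b.1, gen Γ s, gen_mem Γ s, fun k f hf ↦ ?_,
    fun k φ h1 h0 b ↦ gen_indep k Finset.univ φ h1 h0 b (Finset.mem_univ _), ?_⟩⟩
  · obtain ⟨u, φ, h1, h2, rfl⟩ := gen_span k hf
    exact ⟨φ, h1, Finset.sum_subset (Finset.subset_univ _) fun b _ hb ↦ by simp [h2 b hb]⟩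
  · rw [Nat.card_eq_fintype_card, ← Finset.card_univ]
    exact gen_card_le hneg _

end Fermat.Agent.Dimension
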