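import Fermat.Agent.Dimension.Periodic

/-!
# Level one forms

Generation by `E₄` and `E₆` in the form `L k = E₄ L (k - 4) + ℂ E₆ ^ (k / 6)` (`L_decomp`), and
the consequences in small weights.
-/

set_option autoImplicit false

open UpperHalfPlane Filter EisensteinSeries
open scoped Topology Manifold ModularForm MatrixGroups

noncomputable section

namespace Fermat.Agent.Dimension

/-- `E₄` as a function. -/
def e4 : ℍ → ℂ := ⇑ModularForm.E₄
/-- `E₆` as a function. -/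
def e6 : ℍ → ℂ := ⇑ModularForm.E₆
/-- `Δ` as a function. -/
def disc : ℍ → ℂ := ModularForm.discriminant

lemma mem_L_of_modularForm {k : ℤ} (f : ModularForm 𝒮ℒ k) : ⇑f ∈ L k :=
  ⟨ModularFormClass.holo f, fun γ _ ↦ f.slash_action_eq' _ ⟨γ, rfl⟩,
    fun g ↦ ModularFormClass.bdd_at_infty_slash f g⟩

lemma e4_mem : e4 ∈ L 4 := mem_L_of_modularForm _

lemma e6_mem : e6 ∈ L 6 := mem_L_of_modularForm _

lemma disc_mem : disc ∈ L 12 :=
  ⟨CuspForm.discriminant.holo', fun γ _ ↦ CuspForm.discriminant.slash_action_eq' _ ⟨γ, rfl⟩,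
    fun g ↦ (CuspFormClass.zero_at_infty_slash CuspForm.discriminant g).isBoundedAtImInfty⟩

lemma disc_zero : IsZeroAtImInfty disc := ModularForm.discriminant_isZeroAtImInfty

lemma disc_ne (τ : ℍ) : disc τ ≠ 0 := ModularForm.discriminant_ne_zero τ

lemma disc_eq : (1728 : ℂ) • disc = e4 ^ 3 - e6 ^ 2 := by
  funext τ
  simp [disc, e4, e6, ModularForm.discriminant_eq_E₄_cube_sub_E₆_sq τ, mul_div_cancel₀]

lemma e4_or_e6 (τ : ℍ) : e4 τ ≠ 0 ∨ e6 τ ≠ 0 := by
  by_contra! h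
  have := congrFun disc_eq τ
  simp [h.1, h.2, disc_ne τ] at this

lemma tendsto_E {k : ℕ} (hk : 3 ≤ k) (hk2 : Even k) :
    Tendsto (ModularForm.E hk) atImInfty (𝓝 1) := by
  obtain ⟨l, hl⟩ := (L.per1 (mem_L_of_modularForm (ModularForm.E hk))).exists_tendsto
    (ModularFormClass.holo _) (L.bounded (mem_L_of_modularForm _))
  have h := E_qExpansion_coeff_zero hk hk2
  rw [qExpansion_coeff_zero one_pos
      (ModularFormClass.analyticAt_cuspFunction_zero _ one_pos one_mem_strictPeriods_SL)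
      (SlashInvariantFormClass.periodic_comp_ofComplex _ one_mem_strictPeriods_SL),
    valueAtInfty, hl.limUnder_eq] at h
  rwa [h] at hl

lemma tendsto_e4 : Tendsto e4 atImInfty (𝓝 1) := tendsto_E _ ⟨2, rfl⟩

lemma tendsto_e6 : Tendsto e6 atImInfty (𝓝 1) := tendsto_E _ ⟨3, rfl⟩

lemma e4_ne_zero : e4 ≠ 0 := fun h ↦ by
  have := tendsto_e4
  rw [h] at this
  exact one_ne_zero (tendsto_nhds_unique this tendsto_const_nhds)

variable {Γ : Subgroup SL(2, ℤ)} {s : Bool} {k : ℤ}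

lemma disc_bdd_inv : (fun τ : ℍ ↦ qpow 1 τ / disc τ) =O[atImInfty] (1 : ℍ → ℝ) := by
  refine ((tendsto_discriminant_div_q.inv₀ one_ne_zero).isBigO_one ℝ).congr (fun τ ↦ ?_)
    fun _ ↦ rfl
  rw [div_eq_mul_inv, mul_inv, mul_comm]
  congr 1
  exact inv_eq_of_mul_eq_one_left (by rw [← qpow_add]; simp [qpow_zero])

/-- `f / Δ` is bounded at infinity when `f` has period one and vanishes at infinity. -/
lemma bounded_div_disc {f : ℍ → ℂ} (h : Per1 f) (hf : MDiff f) (hb : IsZeroAtImInfty f) :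
    IsBoundedAtImInfty (f / disc) := by
  refine ((h.div_qpow_bounded hf hb).mul (g := fun τ ↦ qpow 1 τ / disc τ) disc_bdd_inv).congr_left
    fun τ ↦ ?_
  simp only [Pi.mul_apply, Pi.div_apply]
  rw [mul_assoc, mul_div_assoc', ← qpow_add]
  simp [qpow_zero, div_eq_mul_inv]

lemma L_neg {f : ℍ → ℂ} (hk : k < 0) (hf : f ∈ L k) : f = 0 := forms_neg_weight hk hf

lemma L_odd {f : ℍ → ℂ} (hk : Odd k) (hf : f ∈ L k) : f = 0 :=
  forms_odd (Subgroup.mem_top _) hk hf

lemma L_two {f : ℍ → ℂ} (hf : f ∈ L 2) : f = 0 := by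
  let F : ModularForm 𝒮ℒ 2 :=
    { toFun := f
      slash_action_eq' := by rintro _ ⟨γ, rfl⟩; exact hf.2.1 γ (Subgroup.mem_top _)
      holo' := hf.1
      bdd_at_cusps' := fun {c} hc ↦ by
        rw [OnePoint.isBoundedAt_iff_forall_SL2Z hc]
        exact fun γ _ ↦ (hf.2.2 γ).bounded }
  have := rank_zero_iff_forall_zero.mp ModularForm.levelOne_weight_two_rank_zero F
  exact congrArg (⇑) this

/-- The standard monomial of weight `k` with value `1` at infinity. -/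
lemma exists_mon (n : ℕ) (hn : Even n) (h4 : 4 ≤ n ∨ n = 0) :
    ∃ x y : ℕ, 4 * x + 6 * y = n ∧ (¬ 6 ∣ n → 0 < x) ∧ (6 ∣ n → x = 0) := by
  obtain ⟨r, rfl⟩ := hn
  rcases Nat.lt_or_ge (r % 3) 1 with h | h
  · exact ⟨0, r / 3, by omega, by omega, by omega⟩
  rcases Nat.lt_or_ge (r % 3) 2 with h' | h'
  · exact ⟨2, (r - 4) / 3, by omega, by omega, by omega⟩
  · exact ⟨1, (r - 2) / 3, by omega, by omega, by omega⟩

lemma monomial_mem (x y : ℕ) : e4 ^ x * e6 ^ y ∈ L (4 * x + 6 * y) :=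
  L.mul_mem (L.pow_mem e4_mem x) (L.pow_mem e6_mem y) (by ring)

lemma tendsto_monomial (x y : ℕ) : Tendsto (e4 ^ x * e6 ^ y) atImInfty (𝓝 1) := by
  have h := ((tendsto_e4.pow x).mul (tendsto_e6.pow y))
  rw [one_pow, one_pow, mul_one] at h
  exact h

lemma L_div_disc {f : ℍ → ℂ} (hf : f ∈ L k) (h0 : IsZeroAtImInfty f) :
    f / disc ∈ L (k - 12) := by
  have hsl : ∀ γ : SL(2, ℤ), (f / disc) ∣[k - 12] γ = f / disc := fun γ ↦ by
    rw [ModularForm.div_slash_SL2, hf.2.1 γ (Subgroup.mem_top _),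
      disc_mem.2.1 γ (Subgroup.mem_top _)]
  exact ⟨hf.1.div disc_mem.1 disc_ne, fun γ _ ↦ hsl γ,
    fun g ↦ by rw [hsl g]; exact bounded_div_disc (L.per1 hf) hf.1 h0⟩

/-- `L k = E₄ L (k - 4) + ℂ E₆ ^ (k / 6)`. -/
theorem L_decomp (k : ℤ) {f : ℍ → ℂ} (hf : f ∈ L k) :
    ∃ α ∈ L (k - 4), ∃ (n : ℕ) (c : ℂ), (c ≠ 0 → k = 6 * n) ∧ f = e4 * α + c • e6 ^ n := by
  have triv : f = 0 → ∃ α ∈ L (k - 4), ∃ (n : ℕ) (c : ℂ),
      (c ≠ 0 → k = 6 * n) ∧ f = e4 * α + c • e6 ^ n := fun h ↦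
    ⟨0, zero_mem _, 0, 0, fun h' ↦ absurd rfl h', by simp [h]⟩
  rcases lt_or_ge k 0 with hneg | hpos
  · exact triv (L_neg hneg hf)
  lift k to ℕ using hpos
  induction k using Nat.strong_induction_on generalizing f with | _ k ih =>
  rcases Nat.even_or_odd k with hev | hodd
  swap
  · exact triv (L_odd (mod_cast hodd) hf)
  by_cases h2 : k = 2
  · subst h2; exact triv (L_two hf)
  have h4 : 4 ≤ k ∨ k = 0 := by obtain ⟨r, rfl⟩ := hev; omega
  obtain ⟨l, hl⟩ := (L.per1 hf).exists_tendsto hf.1 (L.bounded hf)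
  obtain ⟨x, y, hxy, hx, hx'⟩ := exists_mon k hev h4
  have hmon : e4 ^ x * e6 ^ y ∈ L (k : ℤ) := by
    have := monomial_mem x y
    rwa [show (4 * x + 6 * y : ℤ) = k by exact_mod_cast hxy] at this
  set g : ℍ → ℂ := f - l • (e4 ^ x * e6 ^ y) with hg
  have hg0 : IsZeroAtImInfty g := by
    have h := hl.sub ((tendsto_monomial x y).const_smul l)
    rw [smul_eq_mul, mul_one, sub_self] at h
    exact h
  have hgd := L_div_disc (sub_mem hf (Submodule.smul_mem _ l hmon)) hg0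
  set G : ℍ → ℂ := g / disc with hG
  have hfG : f = l • (e4 ^ x * e6 ^ y) + disc * G := by
    funext τ; simp [hG, hg, mul_div_cancel₀, disc_ne τ]
  -- decompose `G`
  have hG' : ∃ α' ∈ L ((k : ℤ) - 16), ∃ (n : ℕ) (c : ℂ),
      (c ≠ 0 → (k : ℤ) - 12 = 6 * n) ∧ G = e4 * α' + c • e6 ^ n := by
    rcases Nat.lt_or_ge k 12 with hlt | hge
    · exact ⟨0, zero_mem _, 0, 0, fun h' ↦ absurd rfl h',
        by simpa using! L_neg (by omega) hgd⟩
    · obtain ⟨α', hα', n, c, hn, hG⟩ :=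
        ih (k - 12) (by omega) (f := G) (by rwa [Nat.cast_sub hge]) (fun h ↦
          ⟨0, zero_mem _, 0, 0, fun h' ↦ absurd rfl h', by simp [h]⟩)
      refine ⟨α', ?_, n, c, fun h ↦ by have := hn h; omega, hG⟩
      rwa [show ((k - 12 : ℕ) : ℤ) - 4 = (k : ℤ) - 16 by omega] at hα'
  obtain ⟨α', hα', n, c, hn, hGeq⟩ := hG'
  have hD : disc = (1 / 1728 : ℂ) • (e4 ^ 3 - e6 ^ 2) := by rw [← disc_eq, smul_smul]; norm_num
  -- the `E₄`-divisible part coming from `Δ * G`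
  set β : ℍ → ℂ := (1 / 1728 : ℂ) • ((e4 ^ 3 - e6 ^ 2) * α' + c • (e4 ^ 2 * e6 ^ n)) with hβ
  have hβmem : β ∈ L ((k : ℤ) - 4) := by
    refine Submodule.smul_mem _ _ (add_mem (L.mul_mem (sub_mem ?_ ?_) hα'
      (by ring : (12 : ℤ) + _ = _)) ?_)
    · exact L.pow_mem e4_mem 3
    · exact L.pow_mem e6_mem 2
    · rcases eq_or_ne c 0 with rfl | hc
      · simp
      · exact Submodule.smul_mem _ _ (L.mul_mem (L.pow_mem e4_mem 2) (L.pow_mem e6_mem n)
          (by have := hn hc; push_cast; omega))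
  have hDG : disc * G = e4 * β + (-(c / 1728)) • e6 ^ (n + 2) := by
    rw [hGeq, hD, hβ]
    funext τ
    simp only [Pi.mul_apply, Pi.add_apply, Pi.sub_apply, Pi.smul_apply, Pi.pow_apply, smul_eq_mul]
    ring
  by_cases h6 : 6 ∣ k
  · obtain ⟨m, rfl⟩ := h6
    obtain rfl : x = 0 := hx' (dvd_mul_right _ _)
    obtain rfl : y = m := by omega
    rcases eq_or_ne c 0 with rfl | hc
    · refine ⟨β, hβmem, y, l, fun _ ↦ by push_cast; ring, ?_⟩
      rw [hfG, hDG]; simp [add_comm]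
    · obtain rfl : y = n + 2 := by have := hn hc; omega
      refine ⟨β, hβmem, n + 2, l - c / 1728, fun _ ↦ by push_cast; ring, ?_⟩
      rw [hfG, hDG]
      funext τ
      simp only [Pi.mul_apply, Pi.add_apply, Pi.smul_apply, Pi.pow_apply, smul_eq_mul, pow_zero,
        one_mul]
      ring
  · have hc : c = 0 := by
      by_contra hc
      exact h6 ⟨n + 2, by have := hn hc; omega⟩
    subst hc
    obtain ⟨x, rfl⟩ : ∃ x', x = x' + 1 := ⟨x - 1, by have := hx h6; omega⟩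
    refine ⟨β + l • (e4 ^ x * e6 ^ y), add_mem hβmem (Submodule.smul_mem _ _ ?_), 0, 0,
      fun h ↦ absurd rfl h, ?_⟩
    · have := monomial_mem x y
      rwa [show (4 * x + 6 * y : ℤ) = k - 4 by omega] at this
    · rw [hfG, hDG]
      funext τ
      simp only [Pi.mul_apply, Pi.add_apply, Pi.smul_apply, Pi.pow_apply, smul_eq_mul, pow_succ]
      ring

/-- A weight zero level one form is constant. -/
lemma L_zero {f : ℍ → ℂ} (hf : f ∈ L 0) : ∃ c : ℂ, f = c • (1 : ℍ → ℂ) := by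
  obtain ⟨c, rfl⟩ := forms_weight_zero hf
  exact ⟨c, by funext τ; simp⟩

/-- There are no level one forms of weight `< 4` other than constants. -/
lemma L_small {f : ℍ → ℂ} (h0 : k ≠ 0) (h4 : k < 4) (hf : f ∈ L k) : f = 0 := by
  rcases lt_or_ge k 0 with h | h
  · exact L_neg h hf
  rcases Int.even_or_odd k with ⟨r, rfl⟩ | ho
  · rw [show r + r = 2 by omega] at hf; exact L_two hf
  · exact L_odd ho hf

/-- A cusp form of level one and weight `< 12` vanishes. -/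
lemma L_cusp_small {f : ℍ → ℂ} (hk : k < 12) (hf : f ∈ L k) (h0 : IsZeroAtImInfty f) :
    f = 0 := by
  have := L_neg (by omega) (L_div_disc hf h0)
  funext τ
  simpa [disc_ne τ] using congrFun this τ

end Fermat.Agent.Dimension
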