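import Fermat.Agent.Dimension.Space

/-!
# Functions of period one on the upper half plane, behaviour at infinity

`qpow r τ = exp (2πirτ)`; holomorphic functions of period one bounded at infinity have a limit
there, and vanish like `q` when that limit is zero.
-/

set_option autoImplicit false

open UpperHalfPlane Filter
open scoped Topology Manifold ModularForm MatrixGroups Real

noncomputable section

namespace Fermat.Agent.Dimension

/-- `e(r τ) = exp (2 π i r τ)`. -/
def qpow (r : ℝ) (τ : ℍ) : ℂ := Complex.exp (2 * π * Complex.I * r * (τ : ℂ))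

lemma qpow_add (r t : ℝ) (τ : ℍ) : qpow (r + t) τ = qpow r τ * qpow t τ := by
  rw [qpow, qpow, qpow, ← Complex.exp_add]; push_cast; ring_nf

lemma qpow_zero : qpow 0 = 1 := by
  funext τ; simp [qpow]

lemma qpow_ne_zero (r : ℝ) (τ : ℍ) : qpow r τ ≠ 0 := Complex.exp_ne_zero _

lemma qpow_sum {ι : Type*} (t : Finset ι) (r : ι → ℝ) (τ : ℍ) :
    qpow (∑ i ∈ t, r i) τ = ∏ i ∈ t, qpow (r i) τ := by
  classical
  induction t using Finset.induction_on with
  | empty => simp [qpow]
  | insert i t hi ih => rw [Finset.sum_insert hi, Finset.prod_insert hi, qpow_add, ih]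

lemma qpow_natCast (n : ℕ) (τ : ℍ) : qpow n τ = qpow 1 τ ^ n := by
  induction n with
  | zero => simp [qpow]
  | succ n ih => push_cast; rw [qpow_add, ih, pow_succ]

lemma qpow_one_eq_qParam (τ : ℍ) : qpow 1 τ = Function.Periodic.qParam 1 τ := by
  simp [qpow, Function.Periodic.qParam]

lemma norm_qpow (r : ℝ) (τ : ℍ) : ‖qpow r τ‖ = Real.exp (-2 * π * r * τ.im) := by
  simp [qpow, Complex.norm_exp]

lemma mdifferentiable_qpow (r : ℝ) : MDiff (qpow r) := by
  rw [UpperHalfPlane.mdifferentiable_iff]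
  refine DifferentiableOn.congr (f := fun z : ℂ ↦ Complex.exp (2 * π * Complex.I * r * z))
    (by fun_prop) fun z hz ↦ ?_
  simp [qpow, ofComplex_apply_of_im_pos hz]

lemma qpow_vadd (r : ℝ) (τ : ℍ) :
    qpow r ((1 : ℝ) +ᵥ τ) = Complex.exp (2 * π * Complex.I * r) * qpow r τ := by
  rw [qpow, qpow, coe_vadd, ← Complex.exp_add]
  congr 1; push_cast; ring

lemma tendsto_qpow {r : ℝ} (hr : 0 < r) : Tendsto (qpow r) atImInfty (𝓝 0) := by
  rw [tendsto_zero_iff_norm_tendsto_zero]
  simp only [norm_qpow]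
  refine Real.tendsto_exp_atBot.comp ?_
  have h : (-2 * π * r) < 0 := by have := Real.pi_pos; nlinarith
  exact (tendsto_const_mul_atBot_of_neg h).mpr tendsto_comap

lemma qpow_bounded {r : ℝ} (hr : 0 ≤ r) : IsBoundedAtImInfty (qpow r) := by
  rcases hr.lt_or_eq with h | h
  · exact isBoundedAtImInfty_of_tendsto (tendsto_qpow h)
  · subst h; rw [qpow_zero]; exact const_boundedAtFilter _ (1 : ℂ)

/-- Invariance under `τ ↦ τ + 1`. -/
def Per1 (f : ℍ → ℂ) : Prop := ∀ τ : ℍ, f ((1 : ℝ) +ᵥ τ) = f τ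

lemma Per1.periodic {f : ℍ → ℂ} (h : Per1 f) : Function.Periodic (f ∘ ofComplex) ((1 : ℝ) : ℂ) := by
  intro w
  by_cases hw : 0 < w.im
  · have : 0 < (w + (1 : ℝ)).im := by simpa using hw
    simp only [Function.comp_apply, ofComplex_apply_of_im_pos this, ofComplex_apply_of_im_pos hw]
    rw [← h ⟨w, hw⟩]
    congr 1; ext; simp [add_comm]
  · have : (w + (1 : ℝ)).im ≤ 0 := by simpa using not_lt.mp hw
    simp only [Function.comp_apply, ofComplex_apply_of_im_nonpos this,
      ofComplex_apply_of_im_nonpos (not_lt.mp hw)]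

lemma Per1.exists_tendsto {f : ℍ → ℂ} (h : Per1 f) (hf : MDiff f) (hb : IsBoundedAtImInfty f) :
    ∃ l : ℂ, Tendsto f atImInfty (𝓝 l) := by
  refine ⟨cuspFunction 1 f 0, ?_⟩
  have := (analyticAt_cuspFunction_zero one_pos h.periodic hf hb).continuousAt.tendsto.comp
    (qParam_tendsto_atImInfty one_pos)
  exact this.congr fun τ ↦ eq_cuspFunction τ one_ne_zero h.periodic

/-- A periodic function vanishing at infinity is `O(q)`. -/
lemma Per1.div_qpow_bounded {f : ℍ → ℂ} (h : Per1 f) (hf : MDiff f) (hb : IsZeroAtImInfty f) :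
    IsBoundedAtImInfty (fun τ ↦ f τ * qpow (-1) τ) := by
  have hev : ∀ᶠ z in comap Complex.im atTop, DifferentiableAt ℂ (f ∘ ofComplex) z :=
    eventually_of_mem (preimage_mem_comap (Ioi_mem_atTop 0))
      (fun z hz ↦ UpperHalfPlane.mdifferentiableAt_iff.mp (hf ⟨z, hz⟩))
  have h1 := (h.periodic.exp_decay_of_zero_at_inf one_pos hev
    (hb.comp tendsto_comap_im_ofComplex)).comp_tendsto tendsto_coe_atImInfty
  have h2 := h1.mul (Asymptotics.isBigO_refl (qpow (-1)) atImInfty).norm_right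
  unfold IsBoundedAtImInfty BoundedAtFilter
  refine (h2.congr (fun τ ↦ ?_) fun τ ↦ ?_)
  · simp [Function.comp]
  · simp only [Function.comp_apply, norm_qpow, coe_im, Pi.one_apply]
    rw [← Real.exp_add]
    convert Real.exp_zero using 2
    ring

lemma Per1.mul {f g : ℍ → ℂ} (hf : Per1 f) (hg : Per1 g) : Per1 (f * g) := fun τ ↦ by
  simp [hf τ, hg τ]

lemma per1_qpow_int (n : ℤ) : Per1 (qpow n) := fun τ ↦ by
  rw [qpow_vadd]
  have : Complex.exp (2 * π * Complex.I * ((n : ℝ) : ℂ)) = 1 :=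
    Complex.exp_eq_one_iff.mpr ⟨n, by push_cast; ring⟩
  rw [this, one_mul]

lemma per1_of_T {f : ℍ → ℂ} {k : ℤ} (h : f ∣[k] ModularGroup.T = f) : Per1 f := fun τ ↦ by
  have := congrFun h τ
  rw [ModularForm.SL_slash_apply, modular_T_smul] at this
  have hd : denom (ModularGroup.T : GL (Fin 2) ℝ) τ = 1 := by simp [denom, ModularGroup.coe_T]
  rw [hd, one_zpow, mul_one] at this
  exact this

lemma L.per1 {f : ℍ → ℂ} {k : ℤ} (hf : f ∈ L k) : Per1 f :=
  per1_of_T (hf.2.1 _ (Subgroup.mem_top _))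

/-- `Δ / q → 1`. -/
lemma tendsto_discriminant_div_q :
    Tendsto (fun τ : ℍ ↦ ModularForm.discriminant τ * qpow (-1) τ) atImInfty (𝓝 1) := by
  refine ModularForm.tendsto_atImInfty_tprod_one_sub_eta_q_pow.congr fun τ ↦ ?_
  rw [ModularForm.discriminant_eq_q_prod, ← qpow_one_eq_qParam, mul_right_comm, ← qpow_add]
  simp [qpow_zero]

end Fermat.Agent.Dimension
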