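import Fermat.Agent.Dimension.EvalMatrix
import Fermat.Agent.LevelOne.Lattice
import Fermat.Agent.Cosets.Hermite

/-!
# `Γ₀(N)`-forms separate the translates of every point

The forms `E₄(Nτ)` and `E₆(Nτ)` evaluated at the translates of `τ` are the invariants of the index
`N` sublattices attached to the cosets, and those determine the sublattice, hence the coset.
-/

set_option autoImplicit false

open UpperHalfPlane Filter Matrix CongruenceSubgroup
open scoped Topology Manifold ModularForm MatrixGroups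

noncomputable section

namespace Fermat.Agent.Dimension

/-- `diag (N, 1)` in `GL(2, ℝ)`. -/
def scaleGL (N : ℕ) [NeZero N] : GL (Fin 2) ℝ :=
  Matrix.GeneralLinearGroup.mkOfDetNeZero !![(N : ℝ), 0; 0, 1]
    (by simp [Matrix.det_fin_two_of, NeZero.ne N])

variable {N : ℕ} [NeZero N]

lemma scaleGL_val : ((scaleGL N : GL (Fin 2) ℝ) : Matrix (Fin 2) (Fin 2) ℝ) =
    !![(N : ℝ), 0; 0, 1] :=
  rfl

lemma scaleGL_det : (scaleGL N).det.val = N := by
  simp [Matrix.GeneralLinearGroup.val_det_apply, scaleGL_val, Matrix.det_fin_two_of]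

lemma scaleGL_mul_det_pos (g : SL(2, ℤ)) :
    0 < (scaleGL N * (g : GL (Fin 2) ℝ)).det.val := by
  rw [map_mul, Units.val_mul, scaleGL_det]
  simp [Nat.pos_of_ne_zero (NeZero.ne N)]

lemma scaleGL_mul_det (g : SL(2, ℤ)) :
    (scaleGL N * (g : GL (Fin 2) ℝ)).det.val = N := by
  rw [map_mul, Units.val_mul, scaleGL_det]
  simp

/-- `E_k (N τ)` up to a constant. -/
def scaledE (N : ℕ) [NeZero N] {k : ℕ} (hk : 3 ≤ k) : ℍ → ℂ :=
  ⇑(ModularForm.E hk) ∣[(k : ℤ)] scaleGL N

lemma scaledE_mem {k : ℕ} (hk : 3 ≤ k) : scaledE N hk ∈ forms (Gamma0 N) false (k : ℤ) := by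
  refine ⟨(ModularFormClass.holo _).slash _ _, fun γ hγ ↦ ?_, fun g ↦ ?_⟩
  · obtain ⟨c, hc⟩ := (ZMod.intCast_zmod_eq_zero_iff_dvd (γ 1 0) N).mp (Gamma0_mem.mp hγ)
    have hdet : γ 0 0 * γ 1 1 - γ 0 1 * γ 1 0 = 1 := by
      have := γ.2
      rwa [Matrix.det_fin_two] at this
    let γ' : SL(2, ℤ) := ⟨!![γ 0 0, (N : ℤ) * γ 0 1; c, γ 1 1],
      by rw [Matrix.det_fin_two_of]; linear_combination hdet + γ 0 1 * hc⟩
    have hcomm : scaleGL N * (γ : GL (Fin 2) ℝ) = (γ' : GL (Fin 2) ℝ) * scaleGL N := by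
      apply Units.ext
      ext i j
      fin_cases i <;> fin_cases j <;>
        simp [scaleGL_val, Matrix.mul_apply, Fin.sum_univ_two, γ', hc, mul_comm]
    rw [scaledE, ModularForm.SL_slash, ← SlashAction.slash_mul, hcomm, SlashAction.slash_mul,
      show ⇑(ModularForm.E hk) ∣[(k : ℤ)] (γ' : GL (Fin 2) ℝ) = ⇑(ModularForm.E hk) from
        (ModularForm.E hk).slash_action_eq' _ ⟨γ', rfl⟩]
  · obtain ⟨h, σ, hσ⟩ := Cosets.exists_hermiteRel (N := N) g
    let U : GL (Fin 2) ℝ := Matrix.GeneralLinearGroup.mkOfDetNeZero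
      !![(h.a : ℝ), (h.b : ℝ); 0, (h.d : ℝ)]
      (by simp [Matrix.det_fin_two_of, h.a_pos.ne', h.d_pos.ne'])
    have hfac : scaleGL N * (g : GL (Fin 2) ℝ) = (σ : GL (Fin 2) ℝ) * U := by
      apply Units.ext
      ext i j
      have := congrArg (fun z : ℤ ↦ (z : ℝ)) (congrFun (congrFun hσ i) j)
      fin_cases i <;> fin_cases j <;>
        simpa [scaleGL_val, Matrix.mul_apply, Fin.sum_univ_two, U, Cosets.scaleMat,
          Cosets.Hermite.mat] using this
    rw [scaledE, ModularForm.SL_slash, ← SlashAction.slash_mul, hfac, SlashAction.slash_mul,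
      show ⇑(ModularForm.E hk) ∣[(k : ℤ)] (σ : GL (Fin 2) ℝ) = ⇑(ModularForm.E hk) from
        (ModularForm.E hk).slash_action_eq' _ ⟨σ, rfl⟩]
    exact (ModularFormClass.bdd_at_infty _).slash _ (by simp [U])

/-- The point `diag(N,1) g τ`. -/
def scaledPoint (N : ℕ) [NeZero N] (g : SL(2, ℤ)) (τ : ℍ) : ℍ :=
  (scaleGL N * (g : GL (Fin 2) ℝ)) • τ

/-- The sublattice of index `N` attached to `g`. -/
def subLattice (N : ℕ) [NeZero N] (g : SL(2, ℤ)) (τ : ℍ) : PeriodPair :=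
  LevelOne.scalePair (LevelOne.tauPair (scaledPoint N g τ))
    (denom_ne_zero (scaleGL N * (g : GL (Fin 2) ℝ)) τ)

lemma subLattice_ω (g : SL(2, ℤ)) (τ : ℍ) :
    (subLattice N g τ).ω₁ = (N : ℂ) * (g 0 0 * τ + g 0 1) ∧
      (subLattice N g τ).ω₂ = g 1 0 * τ + g 1 1 := by
  have hd := denom_ne_zero (scaleGL N * (g : GL (Fin 2) ℝ)) τ
  constructor
  · simp only [subLattice, LevelOne.scalePair, LevelOne.tauPair, scaledPoint]
    rw [UpperHalfPlane.coe_smul_of_det_pos (scaleGL_mul_det_pos g), mul_div_cancel₀ _ hd]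
    simp [num, scaleGL_val, Matrix.mul_apply, Fin.sum_univ_two]
    ring
  · simp [subLattice, LevelOne.scalePair, LevelOne.tauPair, denom, scaleGL_val, Matrix.mul_apply,
      Fin.sum_univ_two]

lemma scaledE_slash {k : ℕ} (hk : 3 ≤ k) (g : SL(2, ℤ)) (τ : ℍ) :
    (scaledE N hk ∣[(k : ℤ)] g) τ =
      ((N : ℂ) ^ ((k : ℤ) - 1) / (2 * riemannZeta k)) * (subLattice N g τ).G k := by
  have hz : riemannZeta k ≠ 0 := riemannZeta_ne_zero_of_one_lt_re (by norm_cast; omega)
  rw [scaledE, ModularForm.SL_slash, ← SlashAction.slash_mul, ModularForm.slash_apply,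
    subLattice, LevelOne.G_scalePair, LevelOne.G_tauPair hk, scaleGL_mul_det]
  simp only [UpperHalfPlane.σ, scaleGL_mul_det_pos g, if_true,
    ContinuousAlgEquiv.refl_apply, scaledPoint, Nat.abs_cast, Complex.ofReal_natCast,
    _root_.zpow_neg, zpow_natCast]
  field_simp

lemma coset_eq_of_lattice_eq {g g' : SL(2, ℤ)} {τ : ℍ}
    (h : (subLattice N g' τ).lattice = (subLattice N g τ).lattice) :
    g' * g⁻¹ ∈ Gamma0 N := by
  obtain ⟨p, q, hpq⟩ := PeriodPair.mem_lattice.mp (h ▸ (subLattice N g' τ).ω₂_mem_lattice)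
  rw [(subLattice_ω g τ).1, (subLattice_ω g τ).2, (subLattice_ω g' τ).2] at hpq
  have him := congrArg Complex.im hpq
  have hre := congrArg Complex.re hpq
  simp at him hre
  have h1 : (g' 1 0 : ℝ) = p * N * g 0 0 + q * g 1 0 := by
    refine mul_right_cancel₀ τ.im_ne_zero ?_
    linear_combination -him
  have h2 : (g' 1 1 : ℝ) = p * N * g 0 1 + q * g 1 1 := by
    linear_combination -hre - τ.re * h1
  have h1' : g' 1 0 = p * N * g 0 0 + q * g 1 0 := by exact_mod_cast h1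
  have h2' : g' 1 1 = p * N * g 0 1 + q * g 1 1 := by exact_mod_cast h2
  rw [Gamma0_mem, ZMod.intCast_zmod_eq_zero_iff_dvd]
  refine ⟨p, ?_⟩
  have hdet := g.2
  rw [Matrix.det_fin_two] at hdet
  simp only [Matrix.SpecialLinearGroup.coe_mul, Matrix.SpecialLinearGroup.coe_inv,
    Matrix.adjugate_fin_two, Matrix.mul_apply, Fin.sum_univ_two]
  simp
  linear_combination (g 1 1) * h1' - (g 1 0) * h2' + p * N * hdet

/-- `Γ₀(N)` forms separate. -/
theorem separates_Gamma0 (N : ℕ) [NeZero N] : Separates (Gamma0 N) false := by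
  intro τ
  have : Fintype (Coset (Gamma0 N)) := Fintype.ofFinite _
  classical
  set S : Set (Coset (Gamma0 N) → ℂ) := {v | ∃ (k : ℤ) (f : ℍ → ℂ),
    f ∈ forms (Gamma0 N) false k ∧ v = fun c ↦ trans (Gamma0 N) k c f τ}
  have hone : (1 : Coset (Gamma0 N) → ℂ) ∈ S := by
    obtain ⟨h1, h2, h3⟩ := one_mem_L
    refine ⟨0, 1, ⟨h1, fun γ _ ↦ h2 γ (Subgroup.mem_top _), h3⟩, ?_⟩
    funext c
    simp [trans, ModularForm.is_invariant_one]
  have hmul : ∀ {v w}, v ∈ S → w ∈ S → v * w ∈ S := by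
    rintro v w ⟨k, f, hf, rfl⟩ ⟨l, f', hf', rfl⟩
    refine ⟨k + l, f * f', ⟨hf.1.mul hf'.1, fun γ hγ ↦ ?_, fun g ↦ ?_⟩, ?_⟩
    · rw [ModularForm.mul_slash_SL2, hf.2.1 γ hγ, hf'.2.1 γ hγ]
    · rw [ModularForm.mul_slash_SL2]; exact (hf.2.2 g).mul_bounded (hf'.2.2 g).bounded
    · funext c
      simp [trans, ModularForm.mul_slash_SL2]
  have hclosed : ∀ v ∈ Submodule.span ℂ S, ∀ w ∈ Submodule.span ℂ S,
      v * w ∈ Submodule.span ℂ S := by
    intro v hv w hw
    have := Submodule.mul_mem_mul hv hw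
    rw [Submodule.span_mul_span] at this
    exact Submodule.span_mono (Set.mul_subset_iff.mpr fun _ ha _ hb ↦ hmul ha hb) this
  have hsep : ∀ c c' : Coset (Gamma0 N), c ≠ c' → ∃ v ∈ S, v c ≠ v c' := by
    intro c c' hne
    by_contra! hall
    have hG : ∀ (k : ℕ) (hk : 3 ≤ k), (subLattice N (Quotient.out c)⁻¹ τ).G k =
        (subLattice N (Quotient.out c')⁻¹ τ).G k := fun k hk ↦ by
      have := hall (fun c ↦ trans (Gamma0 N) k c (scaledE N hk) τ) ⟨k, _, scaledE_mem hk, rfl⟩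
      simp only [trans, scaledE_slash] at this
      refine mul_left_cancel₀ ?_ this
      exact div_ne_zero (zpow_ne_zero _ (Nat.cast_ne_zero.mpr (NeZero.ne N)))
        (mul_ne_zero two_ne_zero (riemannZeta_ne_zero_of_one_lt_re (by norm_cast; omega)))
    have hlat := LevelOne.lattice_eq_of_g_eq
      (L := subLattice N (Quotient.out c)⁻¹ τ) (M := subLattice N (Quotient.out c')⁻¹ τ)
      (by rw [PeriodPair.g₂, PeriodPair.g₂, hG 4 (by norm_num)])
      (by rw [PeriodPair.g₃, PeriodPair.g₃, hG 6 (by norm_num)])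
    have hmem := coset_eq_of_lattice_eq hlat
    rw [inv_inv, ← QuotientGroup.eq] at hmem
    exact hne (by simpa using hmem)
  refine eq_top_iff.mpr fun v _ ↦ ?_
  have hind : ∀ c, (Pi.single c 1 : Coset (Gamma0 N) → ℂ) ∈ Submodule.span ℂ S := by
    intro c
    have hfac : ∀ c', c' ≠ c → ∃ u ∈ Submodule.span ℂ S, u c = 1 ∧ u c' = 0 := fun c' hc' ↦ by
      obtain ⟨w, hw, hne⟩ := hsep c c' hc'.symm
      refine ⟨(w c - w c')⁻¹ • (w - w c' • 1), Submodule.smul_mem _ _ (sub_mem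
        (Submodule.subset_span hw) (Submodule.smul_mem _ _ (Submodule.subset_span hone))), ?_, ?_⟩
      · simp [sub_ne_zero.mpr hne]
      · simp
    choose u hu hu1 hu0 using hfac
    have heq : (Pi.single c 1 : Coset (Gamma0 N) → ℂ) =
        ∏ c' : {c' // c' ≠ c}, u c'.1 c'.2 := by
      funext x
      rw [Finset.prod_apply]
      rcases eq_or_ne x c with rfl | hx
      · simp [hu1]
      · rw [Pi.single_eq_of_ne hx]
        exact (Finset.prod_eq_zero (Finset.mem_univ (⟨x, hx⟩ : {c' // c' ≠ c})) (hu0 x hx)).symm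
    rw [heq]
    exact Finset.prod_induction _ (· ∈ Submodule.span ℂ S) (fun a b ha hb ↦ hclosed a ha b hb)
      (Submodule.subset_span hone) fun c' _ ↦ hu _ _
  rw [pi_eq_sum_univ' v]
  exact sum_mem fun c _ ↦ Submodule.smul_mem _ _ (by simpa [Pi.single_apply, eq_comm] using hind c)

end Fermat.Agent.Dimension
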