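import Mathlib

/-!
# Spaces of modular forms as submodules of functions

`forms Γ s k` is the space of weight `k` forms for a subgroup `Γ` of `SL(2, ℤ)`: holomorphic,
`Γ`-invariant, and bounded (`s = false`) or vanishing (`s = true`) at every cusp.
-/

set_option autoImplicit false

open UpperHalfPlane Matrix.SpecialLinearGroup Filter
open scoped Topology Manifold ModularForm MatrixGroups

noncomputable section

namespace Fermat.Agent.Dimension

/-- Growth condition at infinity: bounded (`false`) or tending to zero (`true`). -/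
def CuspCond (s : Bool) (f : ℍ → ℂ) : Prop :=
  if s then IsZeroAtImInfty f else IsBoundedAtImInfty f

variable {s : Bool} {f g : ℍ → ℂ}

lemma cuspCond_zero : CuspCond s (0 : ℍ → ℂ) := by
  unfold CuspCond
  split
  · exact zero_zeroAtFilter _
  · exact zero_form_isBoundedAtImInfty

lemma CuspCond.add (hf : CuspCond s f) (hg : CuspCond s g) : CuspCond s (f + g) := by
  unfold CuspCond at *
  split at hf <;> rename_i h <;> simp only [h, if_true, if_false, Bool.false_eq_true] at *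
  · exact ZeroAtFilter.add hf hg
  · exact BoundedAtFilter.add hf hg

lemma CuspCond.smul (c : ℂ) (hf : CuspCond s f) : CuspCond s (c • f) := by
  unfold CuspCond at *
  split at hf <;> rename_i h <;> simp only [h, if_true, if_false, Bool.false_eq_true] at *
  · exact ZeroAtFilter.smul c hf
  · exact BoundedAtFilter.smul c hf

lemma CuspCond.bounded (hf : CuspCond s f) : IsBoundedAtImInfty f := by
  unfold CuspCond at *
  split at hf
  · exact hf.isBoundedAtImInfty
  · exact hf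

lemma CuspCond.mul_bounded (hf : CuspCond s f) (hg : IsBoundedAtImInfty g) :
    CuspCond s (f * g) := by
  unfold CuspCond at *
  split at hf <;> rename_i h <;> simp only [h, if_true, if_false, Bool.false_eq_true] at *
  · exact ZeroAtFilter.mul_boundedAtFilter hf hg
  · exact BoundedAtFilter.mul hf hg

lemma CuspCond.congr (hf : CuspCond s f) (h : f =ᶠ[atImInfty] g) : CuspCond s g := by
  unfold CuspCond at *
  split at hf <;> rename_i hs <;> simp only [hs, if_true, if_false, Bool.false_eq_true] at *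
  · exact Filter.Tendsto.congr' h hf
  · exact Asymptotics.IsBigO.congr' hf h EventuallyEq.rfl

lemma isBoundedAtImInfty_of_tendsto {c : ℂ} (h : Tendsto f atImInfty (𝓝 c)) :
    IsBoundedAtImInfty f :=
  h.isBigO_one ℝ

/-- Division by a function tending to a nonzero limit preserves the cusp condition. -/
lemma CuspCond.div_of_tendsto {c : ℂ} (hf : CuspCond s f) (hg : Tendsto g atImInfty (𝓝 c))
    (hc : c ≠ 0) : CuspCond s (f / g) := by
  rw [div_eq_mul_inv]
  exact hf.mul_bounded (isBoundedAtImInfty_of_tendsto (hg.inv₀ hc))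

variable (Γ : Subgroup SL(2, ℤ))

/-- Weight `k` forms on `Γ` as a submodule of all functions on `ℍ`. -/
def forms (s : Bool) (k : ℤ) : Submodule ℂ (ℍ → ℂ) where
  carrier := {f | MDiff f ∧ (∀ γ ∈ Γ, f ∣[k] γ = f) ∧ ∀ g : SL(2, ℤ), CuspCond s (f ∣[k] g)}
  zero_mem' := ⟨mdifferentiable_const, fun γ _ ↦ SlashAction.zero_slash k γ,
    fun g ↦ by rw [SlashAction.zero_slash]; exact cuspCond_zero⟩
  add_mem' := fun {a b} ha hb ↦ ⟨ha.1.add hb.1,
    fun γ hγ ↦ by rw [SlashAction.add_slash, ha.2.1 γ hγ, hb.2.1 γ hγ],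
    fun g ↦ by rw [SlashAction.add_slash]; exact (ha.2.2 g).add (hb.2.2 g)⟩
  smul_mem' := fun c {a} ha ↦ ⟨ha.1.const_smul c,
    fun γ hγ ↦ by rw [ModularForm.SL_smul_slash, ha.2.1 γ hγ],
    fun g ↦ by rw [ModularForm.SL_smul_slash]; exact (ha.2.2 g).smul c⟩

/-- Level one forms. -/
abbrev L (k : ℤ) : Submodule ℂ (ℍ → ℂ) := forms (⊤ : Subgroup SL(2, ℤ)) false k

variable {Γ} {k l : ℤ}

lemma slash_mul_L {a f : ℍ → ℂ} (ha : a ∈ L l) (g : SL(2, ℤ)) :
    (a * f) ∣[l + k] g = a * (f ∣[k] g) := by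
  rw [ModularForm.mul_slash_SL2, ha.2.1 g (Subgroup.mem_top _)]

lemma mul_mem_forms {a f : ℍ → ℂ} (ha : a ∈ L l) (hf : f ∈ forms Γ s k) :
    a * f ∈ forms Γ s (l + k) := by
  refine ⟨ha.1.mul hf.1, fun γ hγ ↦ by rw [slash_mul_L ha, hf.2.1 γ hγ], fun g ↦ ?_⟩
  rw [slash_mul_L ha, mul_comm]
  refine (hf.2.2 g).mul_bounded ?_
  simpa using! ((ha.2.2 1).bounded)

lemma mul_mem_forms' {a f : ℍ → ℂ} {m : ℤ} (ha : a ∈ L l) (hf : f ∈ forms Γ s k)
    (h : l + k = m) : a * f ∈ forms Γ s m := h ▸ mul_mem_forms ha hf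

lemma L.mul_mem {a b : ℍ → ℂ} {m : ℤ} (ha : a ∈ L l) (hb : b ∈ L k) (h : l + k = m) :
    a * b ∈ L m := mul_mem_forms' ha hb h

lemma one_mem_L : (1 : ℍ → ℂ) ∈ L 0 :=
  ⟨mdifferentiable_const, fun γ _ ↦ ModularForm.is_invariant_one γ, fun g ↦ by
    rw [ModularForm.is_invariant_one]
    exact const_boundedAtFilter _ (1 : ℂ)⟩

lemma L.pow_mem {a : ℍ → ℂ} (ha : a ∈ L l) (n : ℕ) : a ^ n ∈ L (n * l) := by
  induction n with
  | zero => simpa using one_mem_L
  | succ n ih => rw [pow_succ]; exact L.mul_mem ih ha (by push_cast; ring)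

lemma L.bounded {a : ℍ → ℂ} (ha : a ∈ L l) : IsBoundedAtImInfty a := by
  simpa using! (ha.2.2 1).bounded

/-- Interpret a bounded `Γ`-form as a Mathlib modular form. -/
def toModularForm [Γ.FiniteIndex] (f : ℍ → ℂ) (hf : f ∈ forms Γ false k) :
    ModularForm (Γ : Subgroup (GL (Fin 2) ℝ)) k where
  toFun := f
  slash_action_eq' := by rintro _ ⟨γ, hγ, rfl⟩; exact hf.2.1 γ hγ
  holo' := hf.1
  bdd_at_cusps' {c} hc := by
    rw [Subgroup.IsArithmetic.isCusp_iff_isCusp_SL2Z] at hc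
    rw [OnePoint.isBoundedAt_iff_forall_SL2Z hc]
    exact fun γ _ ↦ (hf.2.2 γ).bounded

lemma forms_le_false : forms Γ s k ≤ forms Γ false k := fun _ hf ↦
  ⟨hf.1, hf.2.1, fun g ↦ (hf.2.2 g).bounded⟩

lemma forms_neg_weight [Γ.FiniteIndex] (hk : k < 0) (hf : f ∈ forms Γ s k) : f = 0 :=
  congrArg (⇑) (ModularForm.isZero_of_neg_weight hk (toModularForm f (forms_le_false hf)))

lemma forms_weight_zero [Γ.FiniteIndex] (hf : f ∈ forms Γ s 0) :
    ∃ c : ℂ, f = Function.const ℍ c :=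
  ModularForm.eq_const_of_weight_zero (toModularForm f (forms_le_false hf))

lemma forms_true_weight_zero [Γ.FiniteIndex] (hf : f ∈ forms Γ true 0) : f = 0 := by
  obtain ⟨c, rfl⟩ := forms_weight_zero hf
  have h : Tendsto (Function.const ℍ c ∣[(0 : ℤ)] (1 : SL(2, ℤ))) atImInfty (𝓝 0) := hf.2.2 1
  rw [SlashAction.slash_one] at h
  have := tendsto_nhds_unique (tendsto_const_nhds : Tendsto (Function.const ℍ c) atImInfty (𝓝 c)) h
  rw [this]; rfl

lemma forms_odd (hneg : (-1 : SL(2, ℤ)) ∈ Γ) (hk : Odd k) (hf : f ∈ forms Γ s k) : f = 0 := by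
  funext τ
  have h := congrFun (hf.2.1 _ hneg) τ
  rw [ModularForm.SL_slash_apply] at h
  have h1 : ((-1 : SL(2, ℤ)) • τ) = τ := by
    rw [ModularGroup.SL_neg_smul, one_smul]
  have h2 : denom ((-1 : SL(2, ℤ)) : GL (Fin 2) ℝ) τ = (-1 : ℂ) := by
    simp [denom]
  rw [h1, h2, hk.neg.neg_one_zpow] at h
  simp only [Pi.zero_apply]
  linear_combination (-1 / 2 : ℂ) * h

/-- Cusp forms on `Γ` are the submodule `forms Γ true k`. -/
def cuspFormEquiv [Γ.FiniteIndex] :
    CuspForm (Γ : Subgroup (GL (Fin 2) ℝ)) k ≃ₗ[ℂ] forms Γ true k where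
  toFun F := ⟨F, CuspFormClass.holo F,
    fun γ hγ ↦ SlashInvariantFormClass.slash_action_eq F _ ⟨γ, hγ, rfl⟩,
    fun g ↦ CuspFormClass.zero_at_infty_slash F g⟩
  invFun F :=
    { toFun := F
      slash_action_eq' := by rintro _ ⟨γ, hγ, rfl⟩; exact F.2.2.1 γ hγ
      holo' := F.2.1
      zero_at_cusps' := fun {c} hc ↦ by
        rw [Subgroup.IsArithmetic.isCusp_iff_isCusp_SL2Z] at hc
        rw [OnePoint.isZeroAt_iff_forall_SL2Z hc]
        exact fun γ _ ↦ F.2.2.2 γ }
  map_add' _ _ := rfl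
  map_smul' _ _ := rfl
  left_inv _ := rfl
  right_inv _ := rfl

end Fermat.Agent.Dimension
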