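import Fermat.Agent.Dimension.LevelOne

/-!
# The translates of a form along the cosets `SL(2, ℤ) ⧸ Γ`

`trans Γ k c f` is `f ∣ g⁻¹` for `c = gΓ`; for a form it is independent of `g`, and `SL(2, ℤ)`
permutes the translates.
-/

set_option autoImplicit false

open UpperHalfPlane Filter Matrix.SpecialLinearGroup
open scoped Topology Manifold ModularForm MatrixGroups

noncomputable section

namespace Fermat.Agent.Dimension

/-- Coset space. -/
abbrev Coset (Γ : Subgroup SL(2, ℤ)) : Type := SL(2, ℤ) ⧸ Γ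

/-- The translate of `f` attached to the coset `c = gΓ`, namely `f ∣ g⁻¹`. -/
def trans (Γ : Subgroup SL(2, ℤ)) (k : ℤ) (c : Coset Γ) (f : ℍ → ℂ) : ℍ → ℂ :=
  f ∣[k] (Quotient.out c)⁻¹

variable {Γ : Subgroup SL(2, ℤ)} {s : Bool} {k l : ℤ}

lemma trans_add (c : Coset Γ) (f g : ℍ → ℂ) :
    trans Γ k c (f + g) = trans Γ k c f + trans Γ k c g := SlashAction.add_slash _ _ _ _

lemma trans_smul (c : Coset Γ) (a : ℂ) (f : ℍ → ℂ) :
    trans Γ k c (a • f) = a • trans Γ k c f := ModularForm.SL_smul_slash _ _ _ _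

lemma trans_sum {ι : Type*} (t : Finset ι) (c : Coset Γ) (f : ι → ℍ → ℂ) :
    trans Γ k c (∑ i ∈ t, f i) = ∑ i ∈ t, trans Γ k c (f i) := SlashAction.sum_slash _ _

/-- The translate does not depend on the representative. -/
lemma trans_mk {f : ℍ → ℂ} (hf : f ∈ forms Γ s k) (g : SL(2, ℤ)) :
    trans Γ k (g : Coset Γ) f = f ∣[k] g⁻¹ := by
  obtain ⟨h, hh⟩ := QuotientGroup.mk_out_eq_mul Γ g
  unfold trans
  rw [hh, mul_inv_rev, SlashAction.slash_mul, hf.2.1 _ (inv_mem h.2)]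

/-- `SL(2, ℤ)` permutes the translates. -/
lemma trans_slash {f : ℍ → ℂ} (hf : f ∈ forms Γ s k) (g : SL(2, ℤ)) (c : Coset Γ) :
    trans Γ k c f ∣[k] g = trans Γ k (g⁻¹ • c) f := by
  conv_rhs => rw [← QuotientGroup.out_eq' c, MulAction.Quotient.smul_mk, trans_mk hf]
  rw [trans, ← SlashAction.slash_mul, smul_eq_mul, mul_inv_rev, inv_inv]

lemma trans_mdiff {f : ℍ → ℂ} (hf : f ∈ forms Γ s k) (c : Coset Γ) : MDiff (trans Γ k c f) := by
  rw [trans, ModularForm.SL_slash]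
  exact hf.1.slash k _

lemma trans_cond {f : ℍ → ℂ} (hf : f ∈ forms Γ s k) (c : Coset Γ) :
    CuspCond s (trans Γ k c f) := hf.2.2 _

/-- The growth condition only has to be checked on the translates. -/
lemma cond_slash_of_trans {f : ℍ → ℂ} (hinv : ∀ γ ∈ Γ, f ∣[k] γ = f)
    (h : ∀ c, CuspCond s (trans Γ k c f)) (g : SL(2, ℤ)) : CuspCond s (f ∣[k] g) := by
  obtain ⟨γ, hγ⟩ := QuotientGroup.mk_out_eq_mul Γ g⁻¹
  have := h (g⁻¹ : SL(2, ℤ))
  rwa [trans, hγ, mul_inv_rev, inv_inv, SlashAction.slash_mul, hinv _ (inv_mem γ.2)] at this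

lemma trans_mul_L {a : ℍ → ℂ} (ha : a ∈ L l) (c : Coset Γ) (f : ℍ → ℂ) :
    trans Γ (l + k) c (a * f) = a * trans Γ k c f := slash_mul_L ha _

lemma trans_mul_L' {a : ℍ → ℂ} {m : ℤ} (ha : a ∈ L l) (h : l + k = m) (c : Coset Γ)
    (f : ℍ → ℂ) : trans Γ m c (a * f) = a * trans Γ k c f := h ▸ trans_mul_L ha c f

lemma trans_T {f : ℍ → ℂ} (hf : f ∈ forms Γ s k) (c : Coset Γ) (τ : ℍ) :
    trans Γ k c f ((1 : ℝ) +ᵥ τ) = trans Γ k ((ModularGroup.T)⁻¹ • c) f τ := by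
  rw [← trans_slash hf, ModularForm.SL_slash_apply, modular_T_smul]
  have hd : denom (ModularGroup.T : GL (Fin 2) ℝ) τ = 1 := by simp [denom, ModularGroup.coe_T]
  rw [hd, one_zpow, mul_one]

/-- Transformation of the translates under `τ ↦ γ τ`. -/
lemma trans_smul_point {f : ℍ → ℂ} (hf : f ∈ forms Γ s k) (c : Coset Γ) (γ : SL(2, ℤ)) (τ : ℍ) :
    trans Γ k c f (γ • τ) = denom γ τ ^ k * trans Γ k (γ⁻¹ • c) f τ := by
  rw [← trans_slash hf, ModularForm.SL_slash_apply, zpow_neg]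
  field_simp

end Fermat.Agent.Dimension
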